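import Fermat.Agent.MordellWeil.Chart
import Mathlib.RingTheory.Spectrum.Prime.Chevalley
import Mathlib.RingTheory.Jacobson.Ring

/-!
# Extension of points from the image of a dominant map
-/

set_option autoImplicit false
set_option linter.style.haveILetI false
set_option linter.unusedSectionVars false

noncomputable section

open PrimeSpectrum

namespace Fermat.Agent.MordellWeil

/-- A maximal ideal of an algebra of finite type over an algebraically closed field is the kernel
of a point. -/
theorem exists_algHom_ker_eq {k B : Type*} [Field k] [IsAlgClosed k] [CommRing B] [Algebra k B]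
    [Algebra.FiniteType k B] (m : Ideal B) [m.IsMaximal] :
    ∃ φ : B →ₐ[k] k, RingHom.ker φ = m := by
  letI := Ideal.Quotient.field m
  haveI : Module.Finite k (B ⧸ m) := finite_of_finite_type_of_isJacobsonRing k (B ⧸ m)
  let e : k ≃ₐ[k] (B ⧸ m) := AlgEquiv.ofBijective (Algebra.ofId k (B ⧸ m))
    IsAlgClosed.algebraMap_bijective_of_isIntegral
  refine ⟨e.symm.toAlgHom.comp (Ideal.Quotient.mkₐ k m), Ideal.ext fun b => ?_⟩
  simp [RingHom.mem_ker, Ideal.Quotient.eq_zero_iff_mem]

section Extend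

variable {k R₀ B : Type*} [Field k] [IsAlgClosed k] [CommRing R₀] [IsDomain R₀] [Algebra k R₀]
  [Algebra.FiniteType k R₀] [CommRing B] [IsDomain B] [Algebra k B] [Algebra.FiniteType k B]

/-- A dominant map of varieties has a dense open set in its image. -/
theorem exists_extend (f : R₀ →ₐ[k] B) (hf : Function.Injective f) :
    ∃ r : R₀, r ≠ 0 ∧ ∀ φ : R₀ →ₐ[k] k, φ r ≠ 0 → ∃ ψ : B →ₐ[k] k, ψ.comp f = φ := by
  classical
  haveI : IsNoetherianRing R₀ := Algebra.FiniteType.isNoetherianRing k R₀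
  have hfin : f.toRingHom.FinitePresentation := by
    rw [← RingHom.FinitePresentation.of_finiteType]
    letI : Algebra R₀ B := f.toRingHom.toAlgebra
    haveI : IsScalarTower k R₀ B := IsScalarTower.of_algebraMap_eq fun x => (f.commutes x).symm
    exact Algebra.FiniteType.of_restrictScalars_finiteType k R₀ B
  obtain ⟨S, hS⟩ := exists_constructibleSetData_iff.mpr (isConstructible_range_comap hfin)
  have hgen : (⟨⊥, Ideal.isPrime_bot⟩ : PrimeSpectrum R₀) ∈ S.toSet := by
    rw [hS]
    exact ⟨⟨⊥, Ideal.isPrime_bot⟩, PrimeSpectrum.ext ((RingHom.injective_iff_ker_eq_bot _).mp hf)⟩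
  simp only [ConstructibleSetData.toSet, Set.mem_iUnion] at hgen
  obtain ⟨C, hC, hmem⟩ := hgen
  refine ⟨C.f, fun h0 => hmem.2 ?_, fun φ hφ => ?_⟩
  · rw [mem_zeroLocus, h0]; simp
  have hker : (RingHom.ker φ).IsMaximal :=
    RingHom.ker_isMaximal_of_surjective φ fun a => ⟨algebraMap k R₀ a, φ.commutes a⟩
  have hin : (⟨RingHom.ker φ, hker.isPrime⟩ : PrimeSpectrum R₀) ∈ S.toSet := by
    simp only [ConstructibleSetData.toSet, Set.mem_iUnion]
    refine ⟨C, hC, ?_, fun h => hφ ?_⟩
    · rw [mem_zeroLocus]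
      intro a ha
      have h1 := (mem_zeroLocus _ _).mp hmem.1 ha
      change a ∈ (⊥ : Ideal R₀) at h1
      rw [Ideal.mem_bot] at h1
      subst h1
      exact zero_mem _
    · exact (mem_zeroLocus _ _).mp h (Set.mem_singleton _)
  rw [hS] at hin
  obtain ⟨Q, hQ⟩ := hin
  obtain ⟨m, hm, hQm⟩ := Q.asIdeal.exists_le_maximal Q.isPrime.ne_top
  have hcomap : m.comap f.toRingHom = RingHom.ker φ := by
    refine (hker.eq_of_le (Ideal.comap_ne_top _ hm.ne_top) ?_).symm
    have := congrArg PrimeSpectrum.asIdeal hQ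
    rw [PrimeSpectrum.comap_asIdeal] at this
    change RingHom.ker φ ≤ _
    rw [show RingHom.ker φ = Q.asIdeal.comap f.toRingHom from this.symm]
    exact Ideal.comap_mono hQm
  obtain ⟨ψ, hψ⟩ := exists_algHom_ker_eq (k := k) m
  refine ⟨ψ, AlgHom.ext fun a => ?_⟩
  have h1 : a - algebraMap k R₀ (φ a) ∈ RingHom.ker φ := by simp [RingHom.mem_ker]
  rw [← hcomap, ← hψ, Ideal.mem_comap, RingHom.mem_ker] at h1
  simpa [sub_eq_zero] using h1

end Extend

end Fermat.Agent.MordellWeil
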