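import Fermat.Agent.CurveTorsion.Main
import Fermat.Agent.MordellWeil.Invariant
import Fermat.Agent.MordellWeil.Rational
import Fermat.Agent.MordellWeil.Extend

/-!
# The torsion is finite

Finiteness of `p ^ n`-torsion over an algebraically closed field of characteristic zero, assembled over
the prime factors of the order.
-/

set_option autoImplicit false
set_option linter.style.haveILetI false
set_option linter.unusedSectionVars false

noncomputable section

open AlgebraicCurve Fermat.Agent.FF

namespace Fermat.Agent.MordellWeil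

variable {F : Type*} [Field F] [Algebra Qb F] [IsFunctionField Qb F]

namespace Coords

variable (X : Coords F)

theorem le_of_W_le {m n : ℕ} {D E : Divisor Qb F} (hn : Divisor.degree D = n)
    (hm : n + bnd Qb F + 1 ≤ m) (h : X.W m D ≤ X.W m E) : E ≤ D := Finsupp.le_def.mpr fun v => by
  obtain ⟨f, hf, h0, hord⟩ := (X.isBase_W hn hm).2 v
  have := neg_le_ord (h hf) h0 v
  simp only [Finsupp.sub_apply] at this
  omega

theorem eq_of_W_eq {m n k : ℕ} {D E : Divisor Qb F} (hn : Divisor.degree D = n)
    (hk : Divisor.degree E = k) (hm : n + bnd Qb F + 1 ≤ m) (hm' : k + bnd Qb F + 1 ≤ m)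
    (h : X.W m D = X.W m E) : D = E :=
  le_antisymm (X.le_of_W_le hk hm' h.ge) (X.le_of_W_le hn hm h.le)

/-- The data of a standard pair. -/
def selfLevel (F : Type*) [Field F] [Algebra Qb F] [IsFunctionField Qb F] : PLevel :=
  ⟨lev F, a0 F, lev F, a0 F⟩

theorem selfLevel_good : (selfLevel F).Good F := by
  constructor <;> simp only [selfLevel, lev, a0] <;> omega

theorem cls_nsmul {n : ℕ} {D : Divisor Qb F} (hn : Divisor.degree D = n) :
    ∀ m : ℕ, X.cls (m * n) (m • D) = m • X.cls n D
  | 0 => by
    rw [zero_nsmul, zero_nsmul, X.cls_eq_zero_iff (by rw [map_zero, Nat.zero_mul]; rfl)]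
    exact ⟨1, one_ne_zero, by simp [zdiv]⟩
  | m + 1 => by
    rw [succ_nsmul, succ_nsmul, ← cls_nsmul hn m, show (m + 1) * n = m * n + n by ring,
      X.cls_add (by rw [map_nsmul, hn]; push_cast; simp) hn]

include X in
/-- The `m`-torsion is finite. -/
theorem finite_nsmul_torsion (m : ℕ) (hm : 0 < m) : {T : Pic0 Qb F | m • T = 0}.Finite := by
  induction m using induction_on_primes with
  | zero => omega
  | one => exact (Set.finite_singleton 0).subset fun T hT => by simpa using hT
  | prime_mul p k hp ih =>
    haveI : Fact p.Prime := ⟨hp⟩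
    have hP : {T : Pic0 Qb F | p • T = 0}.Finite := by
      have h := CurveTorsion.natCard_torsion_pow_of_charZero Qb F p 1
      rw [pow_one] at h
      haveI : Finite (Pic0.torsion Qb F p) :=
        Nat.finite_of_card_ne_zero (by rw [h]; exact pow_ne_zero _ hp.ne_zero)
      exact (Set.finite_range (Subtype.val : Pic0.torsion Qb F p → _)).subset fun T hT =>
        ⟨⟨T, hT⟩, rfl⟩
    refine Set.Finite.of_finite_fibers (fun T => p • T)
      ((ih (Nat.pos_of_mul_pos_left hm)).subset ?_) fun y _ => ?_
    · rintro _ ⟨T, hT, rfl⟩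
      show k • p • T = 0
      rw [← mul_nsmul]
      exact hT
    · rcases Set.eq_empty_or_nonempty ({T : Pic0 Qb F | (p * k) • T = 0} ∩ (fun T => p • T) ⁻¹' {y})
        with h | ⟨T₀, -, hT₀⟩
      · rw [h]; exact Set.finite_empty
      refine (hP.image fun t => T₀ + t).subset fun T hT => ⟨T - T₀, ?_, by abel_nf⟩
      show p • (T - T₀) = 0
      rw [nsmul_sub, show p • T = y from hT.2, show p • T₀ = y from hT₀, sub_self]

end Coords

end Fermat.Agent.MordellWeil
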