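import Fermat.Agent.MordellWeil.Minors

/-!
# Adding a point: the increment of the height is additive in the divisor
-/

set_option autoImplicit false
set_option linter.style.haveILetI false
set_option linter.unusedSectionVars false

noncomputable section

open AlgebraicCurve Fermat.Agent.FF
open scoped Pointwise

namespace Fermat.Agent.MordellWeil

theorem prod_const_mem_pow {P : Type*} {S : Submodule Qb (P → Qb)} {k : ℕ}
    {f : Fin k → P → Qb} (h : ∀ i, f i ∈ S) : ∏ i, f i ∈ S ^ k := by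
  have := prod_mem_prod (s := Finset.univ) (f := f) (S := fun _ => S) fun i _ => h i
  rwa [Finset.prod_const, Finset.card_univ, Fintype.card_fin] at this

variable {F : Type*} [Field F] [Algebra Qb F] [IsFunctionField Qb F]

namespace Coords

variable (X : Coords F)

/-- Increment of the height when a point is added. -/
def incr (m : ℕ) (D : Divisor Qb F) (Q : Place Qb F) : ℝ :=
  X.hW m (D + Finsupp.single Q 1) - X.hW m D

/-- The contraction vector of `L(m • pt - D)` by evaluation at `Q`. -/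
def cvec (m k : ℕ) (D : Divisor Qb F) (Q : Place Qb F) :
    (Fin k → Fin (X.d m)) × Fin k → Qb :=
  contr (X.φ Q m) (X.pl m (PLevel.basisW X m k D))

theorem single_nonneg (Q : Place Qb F) : (0 : Divisor Qb F) ≤ Finsupp.single Q 1 :=
  Finsupp.le_def.mpr fun v => by
    classical
    rw [Finsupp.single_apply]; split_ifs <;> simp

theorem cvec_bounds {m n : ℕ} (hm : n + bnd Qb F + 2 ≤ m) :
    ∃ C, ∀ (D : Divisor Qb F) (Q : Place Qb F), 0 ≤ D → Divisor.degree D = n → D Q = 0 →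
      X.cvec m (X.kdim m n) D Q ≠ 0 ∧
      |habs (X.cvec m (X.kdim m n) D Q) - X.hW m (D + Finsupp.single Q 1)| ≤ C := by
  have hk : X.kdim m n = X.kdim m (n + 1) + 1 := X.kdim_succ (by omega)
  rw [hk]
  obtain ⟨C, hC⟩ := X.contr_bounds m (X.kdim m (n + 1))
  refine ⟨C, fun D Q hD hn hQ => ?_⟩
  obtain ⟨h1, h2, h3, -, -⟩ := PLevel.basisW_spec X (m := m) hD hn (by omega)
  rw [hk] at h1 h2 h3
  have hn1 : Divisor.degree (D + Finsupp.single Q 1) = ((n + 1 : ℕ) : ℤ) := by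
    rw [map_add, hn, degree_single_one]; push_cast; rfl
  have hT : X.W m (D + Finsupp.single Q 1) ≤ X.W m D :=
    riemannRochSpace_mono (sub_le_sub_left (le_add_of_nonneg_right (single_nonneg Q)) _)
  haveI := X.finiteDimensional_of_le (X.W_le (m := m) hD)
  refine hC (X.W m D) (X.W m (D + Finsupp.single Q 1)) _ (X.φ Q m) (X.W_le hD) h1 h2 hT
    (X.finrank_W hn1 (by omega)) (fun f hf => ?_) ?_
  · rw [← X.evv_eq_sum Q (X.W_le hD (hT hf))]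
    exact (X.evv_eq_zero_iff hD hQ (hT hf)).mpr hf
  · by_contra hno
    push Not at hno
    have hle : X.W m D ≤ X.W m (D + Finsupp.single Q 1) := fun f hf =>
      (X.evv_eq_zero_iff hD hQ hf).mp (by rw [X.evv_eq_sum Q (X.W_le hD hf)]; exact hno f hf)
    have e := congrArg (fun S : Submodule Qb F => Module.finrank Qb S) (le_antisymm hle hT)
    simp only [X.finrank_W hn (show n + bnd Qb F ≤ m by omega),
      X.finrank_W hn1 (show n + 1 + bnd Qb F ≤ m by omega)] at e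
    omega

theorem evv_el_uvec {m k : ℕ} (Q : Place Qb F) (Ω : (Fin k → Fin (X.d m)) → Qb)
    (a : (Fin k → Fin (X.d m)) × Fin k) :
    X.evv Q m (X.el m (uvec Ω a)) = contr (X.φ Q m) Ω a := by
  rw [X.evv_eq_sum Q (X.el_mem _ _), co_el]; rfl

theorem sum_φ_prodVec {m₁ m₂ k₁ k₂ : ℕ} (Q : Place Qb F)
    (Ω₁ : (Fin k₁ → Fin (X.d m₁)) → Qb) (Ω₂ : (Fin k₂ → Fin (X.d m₂)) → Qb) (ab) :
    ∑ t, X.φ Q (m₁ + m₂) t * X.prodVec Ω₁ Ω₂ ab t =
      contr (X.φ Q m₁) Ω₁ ab.1 * contr (X.φ Q m₂) Ω₂ ab.2 := by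
  rw [prodVec, ← X.evv_eq_sum Q (X.mul_mem_V (X.el_mem _ _) (X.el_mem _ _)),
    X.evv_mul Q (X.el_mem _ _) (X.el_mem _ _), evv_el_uvec, evv_el_uvec]

theorem prodVec_mem {P : Type*} {m₁ m₂ k₁ k₂ : ℕ}
    (Ω₁ : P → (Fin k₁ → Fin (X.d m₁)) → Qb) (Ω₂ : P → (Fin k₂ → Fin (X.d m₂)) → Qb) (ab)
    (l : Fin (X.d (m₁ + m₂))) :
    (fun x => X.prodVec (Ω₁ x) (Ω₂ x) ab l) ∈ coordSpan Ω₁ * coordSpan Ω₂ := by
  have e : (fun x => X.prodVec (Ω₁ x) (Ω₂ x) ab l) =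
      ∑ j, ∑ i, X.co (m₁ + m₂) (X.e m₁ i * X.e m₂ j) l •
        ((fun x => Ω₁ x (Function.update ab.1.1 ab.1.2 i)) *
          fun x => Ω₂ x (Function.update ab.2.1 ab.2.2 j)) := by
    funext x
    simp only [prodVec, X.co_mul (X.el_mem _ _) (X.el_mem _ _), co_el, mulMat, uvec,
      Finset.sum_apply, Pi.smul_apply, Pi.mul_apply, smul_eq_mul, Finset.sum_mul]
    exact Finset.sum_congr rfl fun j _ => Finset.sum_congr rfl fun i _ => by ring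
  rw [e]
  exact sum_mem fun j _ => sum_mem fun i _ => Submodule.smul_mem _ _
    (Submodule.mul_mem_mul (coord_mem _ _) (coord_mem _ _))

theorem adjugate_mem {P : Type*} {S : Submodule Qb (P → Qb)} {k : ℕ}
    (M : P → Matrix (Fin (k + 1)) (Fin (k + 1)) Qb) (h : ∀ r c, (fun x => M x r c) ∈ S)
    (i j : Fin (k + 1)) : (fun x => (M x).adjugate i j) ∈ S ^ k := by
  have e : (fun x => (M x).adjugate i j) = ∑ s : Equiv.Perm (Fin k),
      ((-1 : Qb) ^ (j + i : ℕ) * ((Equiv.Perm.sign s : ℤ) : Qb)) •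
        ∏ r, (fun x => M x (j.succAbove (s r)) (i.succAbove r)) := by
    funext x
    rw [Matrix.adjugate_fin_succ_eq_det_submatrix, Matrix.det_apply', Finset.mul_sum]
    simp [Finset.sum_apply, Finset.prod_apply, mul_assoc]
  rw [e]
  exact sum_mem fun s _ => Submodule.smul_mem _ _ (prod_const_mem_pow fun r => h _ _)

theorem incr_add_of_disjoint (m₁ n₁ m₂ n₂ : ℕ) (h₁ : n₁ + bnd Qb F + 2 ≤ m₁)
    (h₂ : n₂ + 3 * bnd Qb F + 2 ≤ m₂) :
    ∃ C, ∀ (D₁ D₂ : Divisor Qb F) (Q : Place Qb F), 0 ≤ D₁ → Divisor.degree D₁ = n₁ → 0 ≤ D₂ →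
      Divisor.degree D₂ = n₂ → D₁ Q = 0 → D₂ Q = 0 →
      |X.incr (m₁ + m₂) (D₁ + D₂) Q - (X.incr m₁ D₁ Q + X.incr m₂ D₂ Q)| ≤ C := by
  classical
  set L₁ : PLevel := ⟨m₁, n₁, 2 * bnd Qb F + 2, bnd Qb F + 1⟩ with hL₁
  set L₂ : PLevel := ⟨m₂, n₂, 2 * bnd Qb F + 2, bnd Qb F + 1⟩ with hL₂
  have g₁ : L₁.Good F :=
    ⟨show n₁ + bnd Qb F + 1 ≤ m₁ by omega,
      show bnd Qb F + 1 + bnd Qb F + 1 ≤ 2 * bnd Qb F + 2 by omega⟩
  have g₂ : L₂.Good F :=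
    ⟨show n₂ + bnd Qb F + 1 ≤ m₂ by omega,
      show bnd Qb F + 1 + bnd Qb F + 1 ≤ 2 * bnd Qb F + 2 by omega⟩
  have hm12 : n₁ + n₂ + bnd Qb F + 2 ≤ m₁ + m₂ := by omega
  obtain ⟨k, hk⟩ : ∃ k, X.kdim (m₁ + m₂) (n₁ + n₂) = k + 1 := ⟨_, X.kdim_succ (by omega)⟩
  let P := {x : PLevel.Pt X L₁ × PLevel.Pt X L₂ × Place Qb F //
    x.1.D x.2.2 = 0 ∧ x.2.1.D x.2.2 = 0}
  let Ω₁ : P → (Fin (X.kdim m₁ n₁) → Fin (X.d m₁)) → Qb := fun x => L₁.vec X .W x.1.1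
  let Ω₂ : P → (Fin (X.kdim m₂ n₂) → Fin (X.d m₂)) → Qb := fun x => L₂.vec X .W x.1.2.1
  let C₁ : P → _ → Qb := fun x => X.cvec m₁ (X.kdim m₁ n₁) x.1.1.D x.1.2.2
  let C₂ : P → _ → Qb := fun x => X.cvec m₂ (X.kdim m₂ n₂) x.1.2.1.D x.1.2.2
  let w : P → Fin (k + 1) → F := fun x =>
    PLevel.basisW X (m₁ + m₂) (k + 1) (x.1.1.D + x.1.2.1.D)
  let Ω : P → (Fin (k + 1) → Fin (X.d (m₁ + m₂))) → Qb := fun x => X.pl (m₁ + m₂) (w x)
  let C₁₂ : P → _ → Qb := fun x => contr (X.φ x.1.2.2 (m₁ + m₂)) (Ω x)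
  have hdeg : ∀ x : P, Divisor.degree (x.1.1.D + x.1.2.1.D) = ((n₁ + n₂ : ℕ) : ℤ) := fun x => by
    rw [map_add, x.1.1.D_degree, x.1.2.1.D_degree]
    simp only [hL₁, hL₂]; push_cast; rfl
  have hw : ∀ x : P, LinearIndependent Qb (w x) ∧
      Submodule.span Qb (Set.range (w x)) = X.W (m₁ + m₂) (x.1.1.D + x.1.2.1.D) ∧
      (∀ j, w x j ∈ X.V (m₁ + m₂)) ∧ Ω x ≠ 0 ∧
      X.hW (m₁ + m₂) (x.1.1.D + x.1.2.1.D) = habs (Ω x) := fun x => by
    have := PLevel.basisW_spec X (m := m₁ + m₂) (add_nonneg x.1.1.D_nonneg x.1.2.1.D_nonneg)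
      (hdeg x) (by omega)
    rw [hk] at this
    exact this
  have hprod : ∀ (x : P) ab, ∃ c : Fin (k + 1) → Qb,
      X.prodVec (Ω₁ x) (Ω₂ x) ab = fun l => ∑ i, c i * X.co (m₁ + m₂) (w x i) l := fun x ab => by
    obtain ⟨-, hs₁, hv₁, -, -⟩ := PLevel.basisW_spec X (m := m₁) x.1.1.D_nonneg x.1.1.D_degree
      (by simp only [hL₁]; omega)
    obtain ⟨-, hs₂, hv₂, -, -⟩ := PLevel.basisW_spec X (m := m₂) x.1.2.1.D_nonneg x.1.2.1.D_degree
      (by simp only [hL₂]; omega)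
    have hmem : X.el m₁ (uvec (Ω₁ x) ab.1) * X.el m₂ (uvec (Ω₂ x) ab.2) ∈
        Submodule.span Qb (Set.range (w x)) := by
      rw [(hw x).2.1]
      exact X.mul_mem_W (hs₁ ▸ X.el_uvec_mem hv₁ ab.1) (hs₂ ▸ X.el_uvec_mem hv₂ ab.2)
    obtain ⟨c, hc⟩ := (Submodule.mem_span_range_iff_exists_fun Qb).mp hmem
    refine ⟨c, funext fun l => ?_⟩
    rw [prodVec, ← hc, X.co_sum _ fun i _ => Submodule.smul_mem _ _ ((hw x).2.2.1 i),
      Finset.sum_apply]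
    exact Finset.sum_congr rfl fun i _ => by simp [X.co_smul _ ((hw x).2.2.1 i)]
  -- first vector
  let Y₁ : _ → P → Qb := fun (a : (Fin (k + 1) → X.UIx m₁ n₁ × X.UIx m₂ n₂) ×
      ((Fin (k + 1) → Fin (X.d (m₁ + m₂))) × Fin (k + 1))) x =>
    ∑ t, X.φ x.1.2.2 (m₁ + m₂) t *
      X.minorsY (k + 1) (Ω₁ x) (Ω₂ x) (a.1, Function.update a.2.1 a.2.2 t)
  have hY₁ : ∀ a, Y₁ a ∈
      coordSpan C₁ * coordSpan C₂ * (coordSpan Ω₁ * coordSpan Ω₂) ^ k := by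
    intro a
    have e : Y₁ a = ∑ i, ((fun x => C₁ x (a.1 i).1) * (fun x => C₂ x (a.1 i).2)) *
        fun x => (Matrix.of fun r l => X.prodVec (Ω₁ x) (Ω₂ x) (a.1 l) (a.2.1 r) :
          Matrix (Fin (k + 1)) (Fin (k + 1)) Qb).adjugate i a.2.2 := by
      funext x
      simp only [Y₁, minorsY, sum_mul_plucker_update, Finset.sum_apply, Pi.mul_apply]
      refine Finset.sum_congr rfl fun i _ => ?_
      rw [X.sum_φ_prodVec]
      rfl
    rw [e]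
    exact sum_mem fun i _ => Submodule.mul_mem_mul
      (Submodule.mul_mem_mul (coord_mem _ _) (coord_mem _ _))
      (adjugate_mem _ (fun r l => X.prodVec_mem _ _ _ _) _ _)
  obtain ⟨B₁, hB₁⟩ := ((((dominated_coordSpan C₁).mul (dominated_coordSpan C₂)).mul
    (((dominated_coordSpan Ω₁).mul (dominated_coordSpan Ω₂)).pow k))).le Y₁ hY₁
  -- second vector
  let Y₂ : _ → P → Qb := fun (a : (X.UIx m₁ n₁ × X.UIx m₂ n₂) ×
      (Fin (k + 1) → Fin (X.d (m₁ + m₂)))) x => C₁ x a.1.1 * C₂ x a.1.2 * Ω x a.2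
  have hY₂ : ∀ a, Y₂ a ∈ coordSpan Ω₁ * coordSpan Ω₂ * coordSpan C₁₂ := by
    intro a
    have e : Y₂ a = ∑ j, (fun x => X.prodVec (Ω₁ x) (Ω₂ x) a.1 (a.2 j)) *
        fun x => C₁₂ x (a.2, j) := by
      funext x
      obtain ⟨c, hc⟩ := hprod x a.1
      have hC : C₁ x a.1.1 * C₂ x a.1.2 =
          ∑ t, X.φ x.1.2.2 (m₁ + m₂) t * X.prodVec (Ω₁ x) (Ω₂ x) a.1 t :=
        (X.sum_φ_prodVec _ _ _ _).symm
      simp only [Y₂, Finset.sum_apply, Pi.mul_apply, hC]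
      simp only [hc, C₁₂, contr, uvec, Finset.mul_sum, Finset.sum_mul]
      conv_rhs => rw [Finset.sum_comm]
      refine Finset.sum_congr rfl fun t _ => ?_
      conv_rhs => rw [Finset.sum_comm]
      refine Finset.sum_congr rfl fun i _ => ?_
      have := plucker_mul_apply (fun i => X.co (m₁ + m₂) (w x i)) a.2 i t
      calc X.φ x.1.2.2 (m₁ + m₂) t * (c i * X.co (m₁ + m₂) (w x i) t) * Ω x a.2
          = X.φ x.1.2.2 (m₁ + m₂) t * c i *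
              (plucker (fun i => X.co (m₁ + m₂) (w x i)) a.2 * X.co (m₁ + m₂) (w x i) t) := by
            simp only [Ω, pl]; ring
        _ = _ := by
            rw [this, Finset.mul_sum]
            exact Finset.sum_congr rfl fun j _ => by simp only [Ω, pl]; ring
    rw [e]
    exact sum_mem fun j _ => Submodule.mul_mem_mul (X.prodVec_mem _ _ _ _) (coord_mem _ _)
  obtain ⟨B₂, hB₂⟩ := (((dominated_coordSpan Ω₁).mul (dominated_coordSpan Ω₂)).mul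
    (dominated_coordSpan C₁₂)).le Y₂ hY₂
  obtain ⟨B₃, hB₃⟩ := X.le_habs_minorsY L₁ L₂ g₁ g₂ h₂
  obtain ⟨E₁, hE₁⟩ := X.cvec_bounds h₁
  obtain ⟨E₂, hE₂⟩ := X.cvec_bounds (m := m₂) (n := n₂) (by omega)
  obtain ⟨E₃, hE₃⟩ := X.cvec_bounds hm12
  refine ⟨|B₁| + |B₂| + |B₃| + |E₁| + |E₂| + |E₃|, fun D₁ D₂ Q hD₁ hn₁ hD₂ hn₂ hQ₁ hQ₂ => ?_⟩
  obtain ⟨x₁, hx₁⟩ := PLevel.exists_pt_of_divisor X (m := m₁) hD₁ hn₁
  obtain ⟨x₂, hx₂⟩ := PLevel.exists_pt_of_divisor X (m := m₂) hD₂ hn₂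
  subst hx₁ hx₂
  let x : P := ⟨(x₁, x₂, Q), hQ₁, hQ₂⟩
  obtain ⟨hc₁, hc₁'⟩ := hE₁ x₁.D Q hD₁ hn₁ hQ₁
  obtain ⟨hc₂, hc₂'⟩ := hE₂ x₂.D Q hD₂ hn₂ hQ₂
  obtain ⟨hc, hc'⟩ := hE₃ (x₁.D + x₂.D) Q (add_nonneg hD₁ hD₂) (hdeg x)
    (by rw [Finsupp.add_apply, hQ₁, hQ₂, add_zero])
  have hC12 : habs (X.cvec (m₁ + m₂) (X.kdim (m₁ + m₂) (n₁ + n₂)) (x₁.D + x₂.D) Q) =
      habs (C₁₂ x) ∧ C₁₂ x ≠ 0 := by
    revert hc
    simp only [C₁₂, Ω, w, x, cvec]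
    rw [hk]
    exact fun hc => ⟨rfl, hc⟩
  have hh₁ : X.hW m₁ x₁.D = habs (Ω₁ x) :=
    (PLevel.basisW_spec X (m := m₁) hD₁ hn₁ (by omega)).2.2.2.2
  have hh₂ : X.hW m₂ x₂.D = habs (Ω₂ x) :=
    (PLevel.basisW_spec X (m := m₂) hD₂ hn₂ (by omega)).2.2.2.2
  -- factor the minors
  obtain ⟨hy0, hy⟩ := hB₃ x₁ x₂
  have hyy : ∀ SI, X.minorsY (k + 1) (Ω₁ x) (Ω₂ x) SI =
      (Classical.epsilon fun l => ∀ I, X.minorsY (k + 1) (Ω₁ x) (Ω₂ x) (SI.1, I) = l * Ω x I) *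
        Ω x SI.2 := by
    rintro ⟨S, I⟩
    have hex : ∃ l, ∀ I, X.minorsY (k + 1) (Ω₁ x) (Ω₂ x) (S, I) = l * Ω x I := by
      choose g hg using fun c => hprod x (S c)
      refine ⟨(Matrix.of fun i c => g c i).det, fun I => ?_⟩
      rw [minorsY, show (fun c => X.prodVec (Ω₁ x) (Ω₂ x) (S c)) = fun c l =>
          ∑ i, X.co (m₁ + m₂) (w x i) l * (Matrix.of fun i c => g c i) i c from
        funext fun c => by rw [hg c]; funext l; simp [mul_comm], plucker_comb, mul_comm]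
      rfl
    exact Classical.epsilon_spec hex I
  set lam : (Fin (k + 1) → X.UIx m₁ n₁ × X.UIx m₂ n₂) → Qb := fun S =>
    Classical.epsilon fun l => ∀ I, X.minorsY (k + 1) (Ω₁ x) (Ω₂ x) (S, I) = l * Ω x I with hlam
  have hyy' : X.minorsY (k + 1) (Ω₁ x) (Ω₂ x) = fun SI => lam SI.1 * Ω x SI.2 := funext hyy
  have hy' : X.minorsY (k + 1) (Ω₁ x) (Ω₂ x) ≠ 0 ∧
      ((k + 1 : ℕ) : ℝ) * (habs (Ω₁ x) + habs (Ω₂ x)) ≤
        habs (X.minorsY (k + 1) (Ω₁ x) (Ω₂ x)) + B₃ := by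
    revert hy0 hy
    simp only [Ω₁, Ω₂, x, hL₁, hL₂]
    rw [hk]
    exact fun h1 h2 => ⟨h1, h2⟩
  have hlam0 : lam ≠ 0 := fun h0 => hy'.1 (by rw [hyy']; funext SI; simp [h0])
  have i1 := hy'.2
  rw [hyy', habs_mul_table hlam0 (hw x).2.2.2.1] at i1
  have e1 : (fun a => Y₁ a x) = fun a => lam a.1 * C₁₂ x a.2 := by
    funext a
    simp only [Y₁, C₁₂, contr, uvec, hyy', Finset.mul_sum]
    exact Finset.sum_congr rfl fun t _ => by ring
  have i2 := hB₁ x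
  rw [e1, habs_mul_table hlam0 hC12.2] at i2
  have e2 : (fun a => Y₂ a x) = fun a => (fun ab => C₁ x ab.1 * C₂ x ab.2) a.1 * Ω x a.2 := rfl
  have hc12ne : (fun ab : X.UIx m₁ n₁ × X.UIx m₂ n₂ => C₁ x ab.1 * C₂ x ab.2) ≠ 0 := by
    obtain ⟨a, ha⟩ := Function.ne_iff.mp hc₁
    obtain ⟨b, hb⟩ := Function.ne_iff.mp hc₂
    exact Function.ne_iff.mpr ⟨(a, b), mul_ne_zero ha hb⟩
  have i3 := hB₂ x
  rw [e2, habs_mul_table hc12ne (hw x).2.2.2.1, habs_mul_table hc₁ hc₂] at i3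
  simp only [Pi.add_apply] at i2 i3
  have hh := (hw x).2.2.2.2
  rw [hC12.1] at hc'
  simp only [incr]
  rw [abs_le] at hc₁' hc₂' hc' ⊢
  simp only [C₁, C₂, x] at i2 i3
  change habs (C₁₂ x) - _ ≥ _ ∧ _ at hc'
  simp only [x] at hh₁ hh₂ hh i1 hc'
  push_cast at i1
  have := le_abs_self B₁; have := le_abs_self B₂; have := le_abs_self B₃
  have := le_abs_self E₁; have := le_abs_self E₂; have := le_abs_self E₃
  have := abs_nonneg B₁; have := abs_nonneg B₂; have := abs_nonneg B₃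
  have := abs_nonneg E₁; have := abs_nonneg E₂; have := abs_nonneg E₃
  constructor <;> linarith [i1, i2, i3, hh₁, hh₂, hh]

end Coords

end Fermat.Agent.MordellWeil
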