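import Fermat.Agent.MordellWeil.SquareClasses
import Fermat.Agent.Mazur.Eisenstein.Kummer

/-!
# Finitely many quadratic characters unramified outside a finite set
-/

set_option autoImplicit false
set_option linter.style.haveILetI false
set_option linter.unusedSectionVars false

noncomputable section

open scoped Pointwise

namespace Fermat.Agent.MordellWeil

open Fermat.Agent.Arith
open Fermat.Agent.Mazur.Eisenstein (ordAt_pow exists_int_ordAt exists_coboundary)

/-- A square root. -/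
def sqrtQ (r : QBar) : QBar := (IsAlgClosed.exists_pow_nat_eq r two_pos).choose

theorem sqrtQ_sq (r : QBar) : sqrtQ r ^ 2 = r :=
  (IsAlgClosed.exists_pow_nat_eq r two_pos).choose_spec

open Classical in
/-- The quadratic character of `r`. -/
def quadChar (r : QBar) (σ : GQ) : ZMod 2 := if σ (sqrtQ r) = sqrtQ r then 0 else 1

variable {K : IntermediateField ℚ QBar}

theorem exists_sqrt_of_character [FiniteDimensional ℚ K] (χ : GQ → ZMod 2)
    (hmul : ∀ g ∈ K.fixingSubgroup, ∀ h ∈ K.fixingSubgroup, χ (g * h) = χ g + χ h)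
    (L : IntermediateField ℚ QBar) [FiniteDimensional ℚ L]
    (hL : ∀ σ ∈ K.fixingSubgroup, (∀ x ∈ L, σ x = x) → χ σ = 0) :
    ∃ α : QBar, α ≠ 0 ∧ α ^ 2 ∈ K ∧
      ∀ σ ∈ K.fixingSubgroup, (σ α = α ↔ χ σ = 0) := by
  obtain ⟨α, hα, hgα⟩ := exists_coboundary K.fixingSubgroup (fun σ => (-1 : QBar) ^ (χ σ).val) L
    (fun _ _ => pow_ne_zero _ (by norm_num))
    (fun g hg h hh => by
      rw [map_pow, map_neg, map_one, ← pow_add, hmul g hg h hh, ZMod.val_add,
        ← neg_one_pow_eq_pow_mod_two])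
    (fun g hg g' hg' he => by
      have h : χ (g⁻¹ * g') = 0 := hL _ (mul_mem (inv_mem hg) hg') fun x hx => by
        rw [AlgEquiv.mul_apply, ← he x hx, AlgEquiv.aut_inv, AlgEquiv.symm_apply_apply]
      rw [← mul_inv_cancel_left g g', hmul g hg _ (mul_mem (inv_mem hg) hg'), h, add_zero])
  refine ⟨α, hα, ?_, fun σ hσ => ?_⟩
  · rw [← InfiniteGalois.fixedField_fixingSubgroup K]
    rintro ⟨σ, hσ⟩
    change σ (α ^ 2) = α ^ 2
    rw [map_pow, hgα σ hσ, mul_pow, ← pow_mul, mul_comm (χ σ).val, pow_mul, neg_one_sq, one_pow,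
      one_mul]
  · rw [hgα σ hσ, mul_eq_right₀ hα]
    rcases (by decide : ∀ a : ZMod 2, a = 0 ∨ a = 1) (χ σ) with h | h <;>
      norm_num [h, ZMod.val_one]

/-- Finitely many characters of `Gal(ℚ̄/K)` of order two are unramified outside `d`. -/
theorem exists_finite_characters [NumberField K] [IsGalois ℚ K] {d : ℕ} (hd : d ≠ 0)
    (hunr : UnramifiedOutside K d) :
    ∃ Φ : Set (GQ → ZMod 2), Φ.Finite ∧ ∀ χ : GQ → ZMod 2,
      (∀ g ∈ K.fixingSubgroup, ∀ h ∈ K.fixingSubgroup, χ (g * h) = χ g + χ h) →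
      (∃ L : IntermediateField ℚ QBar, FiniteDimensional ℚ L ∧
        ∀ σ ∈ K.fixingSubgroup, (∀ x ∈ L, σ x = x) → χ σ = 0) →
      (∀ (p : ℕ) (A : ValuationSubring QBar), p.Prime → A.LiesOverPrime p → ¬ p ∣ d →
        ∀ σ ∈ A.inertiaSubgroupIn ℚ, χ σ = 0) →
      ∃ φ ∈ Φ, ∀ h ∈ K.fixingSubgroup, χ h = φ h := by
  classical
  obtain ⟨R, hR, hRK⟩ := exists_finite_square_classes hd hunr
  refine ⟨quadChar '' R, hR.image _, fun χ hmul ⟨L, hLf, hL⟩ hin => ?_⟩
  obtain ⟨α, hα, hα2, hχ⟩ := exists_sqrt_of_character χ hmul L hL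
  have hev : EvenOutside d (α ^ 2) := fun p A hp hA hpd => by
    obtain ⟨k, hk⟩ := exists_int_ordAt hA hp hα fun σ hσ =>
      (hχ σ ((IntermediateField.mem_fixingSubgroup_iff _ _).mpr (hunr p A hp hA hpd σ hσ))).mpr
        (hin p A hp hA hpd σ hσ)
    exact ⟨k, by rw [ordAt_pow hA hp hα, hk]; norm_num⟩
  obtain ⟨r, hr, b, hb, e⟩ := hRK _ hα2 (pow_ne_zero _ hα) hev
  refine ⟨_, Set.mem_image_of_mem _ hr, fun σ hσ => ?_⟩
  have hb0 : b ≠ 0 := fun h => hα (pow_eq_zero_iff two_ne_zero |>.mp (by rw [e, h]; simp))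
  have hσb : σ b = b := (IntermediateField.mem_fixingSubgroup_iff _ _).mp hσ b hb
  have hiff : σ α = α ↔ σ (sqrtQ r) = sqrtQ r := by
    rw [← sqrtQ_sq r, ← mul_pow] at e
    rcases sq_eq_sq_iff_eq_or_eq_neg.mp e with h | h <;> rw [h]
    · rw [map_mul, hσb, mul_left_inj' hb0]
    · rw [map_neg, map_mul, hσb, neg_inj, mul_left_inj' hb0]
  simp only [quadChar]
  split_ifs with hs
  · exact (hχ σ hσ).mp (hiff.mpr hs)
  · exact Fin.eq_one_of_ne_zero _ fun h => hs (hiff.mp ((hχ σ hσ).mpr h))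

end Fermat.Agent.MordellWeil
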