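import Fermat.Agent.MordellWeil.Points
import Fermat.Agent.MordellWeil.PolyFun
import Mathlib.RingTheory.Nullstellensatz
import Mathlib.Algebra.MvPolynomial.Funext
import Mathlib.RingTheory.AlgebraicIndependent.Basic
import Mathlib.Algebra.Polynomial.Lifts

/-!
# The affine curve `C ∖ {pt}` and its powers
-/

set_option autoImplicit false
set_option linter.style.haveILetI false
set_option linter.unusedSectionVars false

noncomputable section

open AlgebraicCurve Fermat.Agent.FF MvPolynomial

namespace Fermat.Agent.MordellWeil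

variable {F : Type*} [Field F] [Algebra Qb F] [IsFunctionField Qb F]

namespace Coords

variable (X : Coords F)

variable (F) in
/-- The level of the projective embedding. -/
def ml : ℕ := 3 * bnd Qb F + 3

/-- Index type of the coordinates of a point. -/
abbrev CIx : Type := Fin (X.d (ml F))

/-- The coordinate functions. -/
def efun (i : X.CIx) : F := X.e (ml F) i

/-- The coordinates of a place. -/
def ν (P : Place Qb F) : X.CIx → Qb := fun i => X.φ P (ml F) i

/-- The affine curve. -/
def Cpts : Set (X.CIx → Qb) := {a | ∃ P : Place Qb F, P ≠ X.pt ∧ X.ν P = a}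

theorem efun_mem (P : Place Qb F) (hP : P ≠ X.pt) (i : X.CIx) : X.efun i ∈ ordGe P 0 := by
  have := mem_riemannRochSpace'.mp (X.e_mem (ml F) i) P
  rwa [Finsupp.single_eq_of_ne hP, neg_zero] at this

theorem ν_eq_val (P : Place Qb F) (hP : P ≠ X.pt) (i : X.CIx) : X.ν P i = val P (X.efun i) := by
  rw [ν, φ, evv, tw, if_neg hP, one_pow, mul_one]; rfl

theorem aeval_efun_mem_and_val (P : Place Qb F) (hP : P ≠ X.pt) (p : MvPolynomial X.CIx Qb) :
    aeval X.efun p ∈ ordGe P 0 ∧ val P (aeval X.efun p) = eval (X.ν P) p := by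
  induction p using MvPolynomial.induction_on with
  | C c =>
    simp only [aeval_C, eval_C]
    exact ⟨(mem_ordGe_zero P).mpr (P.algebraMap_mem' c), val_algebraMap P c⟩
  | add p q hp hq =>
    rw [map_add, map_add]
    exact ⟨add_mem hp.1 hq.1, by rw [val_add P hp.1 hq.1, hp.2, hq.2]⟩
  | mul_X p i hp =>
    rw [map_mul, map_mul, aeval_X, eval_X]
    exact ⟨by simpa using mul_mem_ordGe P hp.1 (X.efun_mem P hP i),
      by rw [val_mul P hp.1 (X.efun_mem P hP i), hp.2, X.ν_eq_val P hP]⟩

/-- Some coordinate function has a pole at `pt`. -/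
theorem exists_pole : ∃ i, X.pt.ord (X.efun i) < 0 := by
  obtain ⟨f, hf, h0, hord⟩ := exists_exact (D := Finsupp.single X.pt (ml F : ℤ))
    (by rw [degree_single_one]; simp only [ml]; push_cast; omega) X.pt
  by_contra hno
  push Not at hno
  have hmem : f ∈ ordGe X.pt 0 := by
    rw [← X.sum_co_smul_e hf]
    exact sum_mem fun i _ => Submodule.smul_mem _ _ ((mem_ordGe X.pt).mpr (Or.inr (hno i)))
  have := le_ord_of_mem_ordGe X.pt h0 hmem
  rw [hord, Finsupp.single_eq_same] at this
  simp only [ml] at this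
  omega

/-- A nonconstant coordinate. -/
def i₀ : X.CIx := X.exists_pole.choose

theorem transcendental_efun_i₀ : Transcendental Qb (X.efun X.i₀) :=
  transcendental_of_ord_ne_zero X.pt X.exists_pole.choose_spec.ne

theorem ν_injective {P Q : Place Qb F} (_hP : P ≠ X.pt) (_hQ : Q ≠ X.pt) (h : X.ν P = X.ν Q) :
    P = Q := by
  classical
  by_contra hne
  have hdeg : Divisor.degree (Finsupp.single Q 1 : Divisor Qb F) = ((1 : ℕ) : ℤ) := by
    rw [degree_single_one]; rfl
  obtain ⟨f, hf, h0, hord⟩ := (X.isBase_W (m := ml F) hdeg (by simp only [ml]; omega)).2 P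
  have hV : f ∈ X.V (ml F) := X.W_le (Finsupp.le_def.mpr fun v => by
    rw [Finsupp.single_apply]; split_ifs <;> simp) hf
  have e : X.evv P (ml F) f = X.evv Q (ml F) f := by
    rw [X.evv_eq_sum P hV, X.evv_eq_sum Q hV]
    exact Finset.sum_congr rfl fun i _ => by rw [show X.φ P (ml F) i = X.φ Q (ml F) i from congrFun h i]
  rw [(X.evv_eq_zero_iff (Q := Q) (D := 0) le_rfl rfl (by rwa [W_zero])).mpr (by rwa [zero_add])] at e
  have := X.mem_support_of_evv_eq_zero hV h0 e
  rw [Finsupp.mem_support_iff, zdiv, Finsupp.add_apply, div_apply, hord,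
    Finsupp.single_eq_of_ne hne] at this
  simp at this

theorem isAlgSet_Cpts : IsAlgSet X.Cpts := by
  refine ⟨{p | aeval X.efun p = 0}, ?_⟩
  ext a
  constructor
  · rintro ⟨P, hP, rfl⟩ p hp
    rw [← (X.aeval_efun_mem_and_val P hP p).2, Set.mem_ofPred_eq.mp hp, val_zero]
  · intro ha
    let φ : MvPolynomial X.CIx Qb →ₐ[Qb] F := aeval X.efun
    let J : Ideal (MvPolynomial X.CIx Qb) :=
      RingHom.ker (aeval a : MvPolynomial X.CIx Qb →ₐ[Qb] Qb)
    have hle : RingHom.ker φ.rangeRestrict ≤ J := fun p hp => by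
      rw [RingHom.mem_ker] at hp
      have := congrArg Subtype.val hp
      change eval a p = 0
      exact ha p this
    have hsurj : Function.Surjective φ.rangeRestrict := φ.rangeRestrict_surjective
    set I := J.map φ.rangeRestrict with hI
    have htop : I ≠ ⊤ := by
      intro h
      have := congrArg (Ideal.comap φ.rangeRestrict) h
      rw [hI, Ideal.comap_map_of_surjective _ hsurj, Ideal.comap_top, ← RingHom.ker_eq_comap_bot,
        sup_eq_left.mpr hle] at this
      exact RingHom.ker_ne_top _ this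
    have hmem : ∀ i, φ.rangeRestrict (MvPolynomial.X i - C (a i)) ∈ I := fun i =>
      Ideal.mem_map_of_mem _ (by simp [J, RingHom.mem_ker])
    have hcoe : ∀ i, ((φ.rangeRestrict (MvPolynomial.X i - C (a i)) : φ.range) : F) =
        X.efun i - algebraMap Qb F (a i) := fun i => by
      change φ (MvPolynomial.X i - C (a i)) = _
      simp [φ]
    have hbot : I ≠ ⊥ := by
      intro h
      have := hmem X.i₀
      rw [h, Ideal.mem_bot] at this
      have e := congrArg Subtype.val this
      rw [hcoe, ZeroMemClass.coe_zero, sub_eq_zero] at e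
      exact X.transcendental_efun_i₀ (e ▸ isAlgebraic_algebraMap _)
    obtain ⟨v, hv, hvI⟩ := exists_place_of_ideal φ.range I htop hbot
    have hval : ∀ i, X.efun i - algebraMap Qb F (a i) ∈ ordGe v 1 := fun i => hcoe i ▸ hvI _ (hmem i)
    have hpt : v ≠ X.pt := by
      rintro rfl
      obtain ⟨i, hi⟩ := X.exists_pole
      have h1 : X.efun i ∈ ordGe X.pt 0 := (mem_ordGe_zero X.pt).mpr
        (hv _ ⟨MvPolynomial.X i, by simp [φ]⟩)
      have := le_ord_of_mem_ordGe X.pt (fun h => by rw [h] at hi; simp at hi) h1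
      omega
    exact ⟨v, hpt, funext fun i => by rw [X.ν_eq_val v hpt]; exact val_eq v (hval i)⟩

/-- A polynomial function on the affine curve has finitely many zeros, or vanishes identically. -/
theorem finite_zeros_or_zero (p : MvPolynomial X.CIx Qb) :
    {P : Place Qb F | P ≠ X.pt ∧ eval (X.ν P) p = 0}.Finite ∨
      ∀ P : Place Qb F, P ≠ X.pt → eval (X.ν P) p = 0 := by
  rcases eq_or_ne (aeval X.efun p) 0 with h | h
  · exact Or.inr fun P hP => by rw [← (X.aeval_efun_mem_and_val P hP p).2, h, val_zero]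
  · refine Or.inl ((div Qb (aeval X.efun p)).support.finite_toSet.subset ?_)
    rintro P ⟨hP, h0⟩
    obtain ⟨hm, hv⟩ := X.aeval_efun_mem_and_val P hP p
    rw [← hv, val_eq_zero_iff P hm] at h0
    have := le_ord_of_mem_ordGe P h h0
    simp only [Finset.mem_coe, Finsupp.mem_support_iff, div_apply]
    omega

/-! ### Powers of the curve -/

/-- Variables for `g` points. -/
abbrev PV (g : ℕ) : Type := Fin g × X.CIx

/-- The power of the affine curve. -/
def Cpow (g : ℕ) : Set (X.PV g → Qb) := {z | ∀ i, (fun a => z (i, a)) ∈ X.Cpts}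

/-- The coordinates of a tuple of places. -/
def νT {g : ℕ} (P : Fin g → Place Qb F) : X.PV g → Qb := fun a => X.ν (P a.1) a.2

theorem νT_mem {g : ℕ} {P : Fin g → Place Qb F} (hP : ∀ i, P i ≠ X.pt) : X.νT P ∈ X.Cpow g :=
  fun i => ⟨P i, hP i, rfl⟩

theorem exists_of_mem_Cpow {g : ℕ} {z : X.PV g → Qb} (hz : z ∈ X.Cpow g) :
    ∃ P : Fin g → Place Qb F, (∀ i, P i ≠ X.pt) ∧ X.νT P = z := by
  choose P hP hPe using hz
  exact ⟨P, hP, funext fun a => congrFun (hPe a.1) a.2⟩

theorem isAlgSet_Cpow_comp {V : Type*} {g : ℕ} (ι : X.PV g → V) :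
    IsAlgSet {z : V → Qb | z ∘ ι ∈ X.Cpow g} :=
  IsAlgSet.forall_ fun i => X.isAlgSet_Cpts.preimage fun a => IsPoly.coord (ι (i, a))

/-- The ideal of the power. -/
def Cideal (g : ℕ) : Ideal (MvPolynomial (X.PV g) Qb) := vanishingIdeal Qb (X.Cpow g)

theorem mem_Cideal {g : ℕ} {p : MvPolynomial (X.PV g) Qb} :
    p ∈ X.Cideal g ↔ ∀ z ∈ X.Cpow g, eval z p = 0 := by
  simp [Cideal, mem_vanishingIdeal_iff, aeval_eq_eval]

theorem finite_zeros_update {g : ℕ} (p : MvPolynomial (X.PV g) Qb) (P : Fin g → Place Qb F)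
    (i : Fin g) :
    {Q : Place Qb F | Q ≠ X.pt ∧ eval (X.νT (Function.update P i Q)) p = 0}.Finite ∨
      ∀ Q : Place Qb F, Q ≠ X.pt → eval (X.νT (Function.update P i Q)) p = 0 := by
  classical
  let f : X.PV g → MvPolynomial X.CIx Qb := fun a =>
    if a.1 = i then MvPolynomial.X a.2 else C (X.ν (P a.1) a.2)
  have e : ∀ Q, eval (X.ν Q) (bind₁ f p) = eval (X.νT (Function.update P i Q)) p := fun Q => by
    rw [show eval (X.ν Q) (bind₁ f p) = eval (fun a => eval (X.ν Q) (f a)) p from
      eval₂Hom_bind₁ (RingHom.id Qb) _ f p]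
    congr 2
    funext a
    by_cases h : a.1 = i <;> simp [f, νT, h]
  simpa only [e] using X.finite_zeros_or_zero (bind₁ f p)

/-- The power of the curve is irreducible. -/
theorem exists_common_ne_zero {g : ℕ} (p q : MvPolynomial (X.PV g) Qb) {z w : X.PV g → Qb}
    (hz : z ∈ X.Cpow g) (hw : w ∈ X.Cpow g) (hp : eval z p ≠ 0) (hq : eval w q ≠ 0) :
    ∃ y ∈ X.Cpow g, eval y p ≠ 0 ∧ eval y q ≠ 0 := by
  classical
  obtain ⟨P, hP, rfl⟩ := X.exists_of_mem_Cpow hz
  obtain ⟨Q, hQ, rfl⟩ := X.exists_of_mem_Cpow hw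
  have key : ∀ (s : Finset (Fin g)) (P Q : Fin g → Place Qb F), (∀ i, P i ≠ X.pt) →
      (∀ i, Q i ≠ X.pt) → (∀ i, i ∉ s → P i = Q i) → eval (X.νT P) p ≠ 0 →
      eval (X.νT Q) q ≠ 0 → ∃ y ∈ X.Cpow g, eval y p ≠ 0 ∧ eval y q ≠ 0 := by
    intro s
    induction s using Finset.induction_on with
    | empty =>
      intro P Q hP _ h hp hq
      obtain rfl : P = Q := funext fun i => h i (Finset.notMem_empty i)
      exact ⟨_, X.νT_mem hP, hp, hq⟩
    | insert i s hi ih =>
      intro P Q hP hQ h hp hq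
      have hfin : ∀ (r : MvPolynomial (X.PV g) Qb) (R : Fin g → Place Qb F), (∀ j, R j ≠ X.pt) →
          eval (X.νT R) r ≠ 0 →
          {S : Place Qb F | S ≠ X.pt ∧ eval (X.νT (Function.update R i S)) r = 0}.Finite :=
        fun r R hR hr => (X.finite_zeros_update r R i).resolve_right fun hall =>
          hr (by simpa using hall (R i) (hR i))
      obtain ⟨S, hS⟩ :=
        (((hfin p P hP hp).union (hfin q Q hQ hq)).union (Set.finite_singleton X.pt)).exists_notMem
      simp only [Set.mem_union, Set.mem_ofPred_eq, Set.mem_singleton_iff, not_or, not_and] at hS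
      obtain ⟨⟨h1, h2⟩, hSpt⟩ := hS
      have hne : ∀ (R : Fin g → Place Qb F), (∀ j, R j ≠ X.pt) →
          ∀ j, Function.update R i S j ≠ X.pt := fun R hR j => by
        rcases eq_or_ne j i with rfl | hj
        · simpa using hSpt
        · simpa [Function.update_of_ne hj] using hR j
      refine ih (Function.update P i S) (Function.update Q i S) (hne P hP) (hne Q hQ) (fun j hj => ?_)
        (h1 hSpt) (h2 hSpt)
      rcases eq_or_ne j i with rfl | hji
      · simp
      · simp only [Function.update_of_ne hji]; exact h j (by simp [hj, hji])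
  exact key Finset.univ P Q hP hQ (fun i hi => absurd (Finset.mem_univ i) hi) hp hq

theorem Cpow_nonempty (g : ℕ) : (X.Cpow g).Nonempty := by
  obtain ⟨Q, hQ⟩ := (Set.finite_singleton X.pt).exists_notMem
  exact ⟨_, X.νT_mem (P := fun _ : Fin g => Q) fun _ => hQ⟩

instance Cideal_isPrime (g : ℕ) : (X.Cideal g).IsPrime := by
  rw [Ideal.isPrime_iff]
  refine ⟨fun h => ?_, fun {p q} hpq => ?_⟩
  · obtain ⟨z, hz⟩ := X.Cpow_nonempty g
    have := X.mem_Cideal.mp (h ▸ Submodule.mem_top : (1 : MvPolynomial (X.PV g) Qb) ∈ X.Cideal g) z hz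
    simp at this
  · by_contra hno
    simp only [X.mem_Cideal, not_or, not_forall] at hno
    obtain ⟨⟨z, hz, hp⟩, w, hw, hq⟩ := hno
    obtain ⟨y, hy, h1, h2⟩ := X.exists_common_ne_zero p q hz hw hp hq
    have := X.mem_Cideal.mp hpq y hy
    rw [map_mul] at this
    exact mul_ne_zero h1 h2 this

/-- The values of the nonconstant coordinate are infinite. -/
theorem infinite_values : {c : Qb | ∃ P : Place Qb F, P ≠ X.pt ∧ X.ν P X.i₀ = c}.Infinite := by
  intro hfin
  set p : MvPolynomial X.CIx Qb := ∏ c ∈ hfin.toFinset, (MvPolynomial.X X.i₀ - C c)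
  have hall : ∀ P : Place Qb F, P ≠ X.pt → eval (X.ν P) p = 0 := fun P hP => by
    rw [map_prod]
    exact Finset.prod_eq_zero (hfin.mem_toFinset.mpr ⟨P, hP, rfl⟩) (by simp)
  have hne : aeval X.efun p ≠ 0 := by
    rw [map_prod]
    refine Finset.prod_ne_zero_iff.mpr fun c _ h0 => X.transcendental_efun_i₀ ?_
    rw [map_sub, aeval_X, aeval_C, sub_eq_zero] at h0
    exact h0 ▸ isAlgebraic_algebraMap _
  obtain ⟨P, hP⟩ := ((div Qb (aeval X.efun p)).support.finite_toSet.union
    (Set.finite_singleton X.pt)).exists_notMem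
  simp only [Set.mem_union, Set.mem_singleton_iff, not_or, Finset.mem_coe, Finsupp.mem_support_iff,
    not_not, div_apply] at hP
  obtain ⟨hm, hv⟩ := X.aeval_efun_mem_and_val P hP.2 p
  have h1 := le_ord_of_mem_ordGe P hne ((val_eq_zero_iff P hm).mp (hv.trans (hall P hP.2)))
  omega

/-- The coordinate ring of the power. -/
abbrev CRing (g : ℕ) : Type := MvPolynomial (X.PV g) Qb ⧸ X.Cideal g

/-- The quotient map. -/
abbrev Cq (g : ℕ) : MvPolynomial (X.PV g) Qb →ₐ[Qb] X.CRing g :=
  Ideal.Quotient.mkₐ Qb (X.Cideal g)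

theorem Cq_eq_zero {g : ℕ} {p : MvPolynomial (X.PV g) Qb} :
    X.Cq g p = 0 ↔ p ∈ X.Cideal g := Ideal.Quotient.eq_zero_iff_mem

/-- The nonconstant coordinates of the `g` points are independent. -/
theorem algebraicIndependent_i₀ (g : ℕ) :
    AlgebraicIndependent Qb fun i : Fin g => X.Cq g (MvPolynomial.X (i, X.i₀)) := by
  rw [algebraicIndependent_iff]
  intro p hp
  have hp' : X.Cq g (rename (fun i : Fin g => (i, X.i₀)) p) = 0 := by
    refine Eq.trans ?_ hp
    rw [← AlgHom.comp_apply]
    exact congrFun (congrArg DFunLike.coe (MvPolynomial.algHom_ext fun i => by simp)) p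
  rw [X.Cq_eq_zero, X.mem_Cideal] at hp'
  refine MvPolynomial.funext_set (fun _ : Fin g => {c : Qb | ∃ P : Place Qb F, P ≠ X.pt ∧ X.ν P X.i₀ = c})
    (fun _ => X.infinite_values) fun x hx => ?_
  rw [map_zero]
  choose P hP hPx using fun i => hx i (Set.mem_univ i)
  have := hp' _ (X.νT_mem hP)
  rwa [eval_rename, show X.νT P ∘ (fun i : Fin g => (i, X.i₀)) = x from funext hPx] at this

theorem exists_relation (a : X.CIx) :
    ∃ r : Polynomial (Polynomial Qb), r.Monic ∧
      Polynomial.eval₂ (Polynomial.aeval (X.efun X.i₀)).toRingHom (X.efun a) r = 0 := by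
  classical
  set x := X.efun X.i₀ with hx
  let φ : Polynomial Qb →ₐ[Qb] F := Polynomial.aeval x
  have hint : IsIntegral φ.range (X.efun a) := by
    refine isIntegral_of_forall_mem φ.range fun v hv => (mem_ordGe_zero v).mp (X.efun_mem v ?_ a)
    rintro rfl
    have hm : x ∈ ordGe X.pt 0 :=
      (mem_ordGe_zero X.pt).mpr (hv x ⟨Polynomial.X, by simp [φ]⟩)
    have hneg : X.pt.ord x < 0 := X.exists_pole.choose_spec
    have := le_ord_of_mem_ordGe X.pt (fun h => by rw [h] at hneg; simp at hneg) hm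
    omega
  obtain ⟨p, hp, he⟩ := hint
  obtain ⟨r, hr, -, hrm⟩ := Polynomial.lifts_and_natDegree_eq_and_monic
    (f := φ.rangeRestrict.toRingHom) (p := p)
    ((Polynomial.lifts_iff_coeff_lifts _).mpr fun k => φ.rangeRestrict_surjective _) hp
  refine ⟨r, hrm, ?_⟩
  rw [← he, ← hr, Polynomial.eval₂_map]
  rfl

/-- The coordinate ring is integral over the nonconstant coordinates. -/
theorem isIntegral_CRing (g : ℕ) (b : X.CRing g) :
    IsIntegral (Algebra.adjoin Qb
      (Set.range fun i : Fin g => X.Cq g (MvPolynomial.X (i, X.i₀)))) b := by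
  classical
  set A := Algebra.adjoin Qb (Set.range fun i : Fin g => X.Cq g (MvPolynomial.X (i, X.i₀)))
  have hX : ∀ v : X.PV g, IsIntegral A (X.Cq g (MvPolynomial.X v)) := by
    rintro ⟨i, a⟩
    obtain ⟨r, hr, he⟩ := X.exists_relation a
    let ξ : A := ⟨X.Cq g (MvPolynomial.X (i, X.i₀)), Algebra.subset_adjoin ⟨i, rfl⟩⟩
    refine ⟨r.map (Polynomial.aeval ξ).toRingHom, hr.map _, ?_⟩
    let T : Polynomial Qb →ₐ[Qb] MvPolynomial (X.PV g) Qb :=
      Polynomial.aeval (MvPolynomial.X (i, X.i₀))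
    let R : MvPolynomial (X.PV g) Qb := Polynomial.eval₂ T.toRingHom (MvPolynomial.X (i, a)) r
    have hR : R ∈ X.Cideal g := X.mem_Cideal.mpr fun z hz => by
      obtain ⟨P, hP, rfl⟩ := X.exists_of_mem_Cpow hz
      let T' : Polynomial Qb →ₐ[Qb] MvPolynomial X.CIx Qb :=
        Polynomial.aeval (MvPolynomial.X X.i₀)
      let R' : MvPolynomial X.CIx Qb := Polynomial.eval₂ T'.toRingHom (MvPolynomial.X a) r
      have h0 : aeval X.efun R' = 0 := by
        simp only [R']
        rw [← AlgHom.coe_toRingHom, Polynomial.hom_eval₂, ← he]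
        congr 1
        · refine Polynomial.ringHom_ext (fun c => ?_) ?_ <;> simp [T']
        · simp
      have e : eval (X.νT P) R = eval (X.ν (P i)) R' := by
        simp only [R, R']
        rw [Polynomial.hom_eval₂, Polynomial.hom_eval₂]
        congr 1
        · refine Polynomial.ringHom_ext (fun c => ?_) ?_ <;> simp [T, T', νT]
        · simp [νT]
      rw [e, ← (X.aeval_efun_mem_and_val (P i) (hP i) R').2, h0, val_zero]
    rw [← X.Cq_eq_zero] at hR
    refine Eq.trans ?_ hR
    simp only [R]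
    rw [Polynomial.eval₂_map, ← AlgHom.coe_toRingHom, Polynomial.hom_eval₂]
    congr 1
    refine Polynomial.ringHom_ext (fun c => ?_) ?_
    · simp [T, ξ]; rfl
    · simp [T, ξ]
  obtain ⟨p, rfl⟩ := Ideal.Quotient.mkₐ_surjective Qb (X.Cideal g) b
  induction p using MvPolynomial.induction_on with
  | C c =>
    rw [show X.Cq g (C c) = algebraMap A (X.CRing g) (algebraMap Qb A c) from rfl]
    exact isIntegral_algebraMap
  | add p q hp hq => rw [map_add]; exact hp.add hq
  | mul_X p v hp => rw [map_mul]; exact hp.mul (hX v)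

end Coords

end Fermat.Agent.MordellWeil
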