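import Fermat.Agent.MordellWeil.Coords
import Fermat.Agent.FF.Kaehler

/-!
# Evaluation functionals and the spaces `L(m • pt - D)`
-/

set_option autoImplicit false
set_option linter.style.haveILetI false
set_option linter.unusedSectionVars false

noncomputable section

open AlgebraicCurve Fermat.Agent.FF

namespace Fermat.Agent.MordellWeil

variable {K F : Type*} [Field K] [Field F] [Algebra K F] [IsFunctionField K F] [IsAlgClosed K]

theorem exists_val (Q : Place K F) {g : F} (hg : g ∈ ordGe Q 0) :
    ∃ a : K, g - algebraMap K F a ∈ ordGe Q 1 :=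
  FF.exists_sub_mem_ordGe_one Q ((mem_ordGe_zero Q).mp hg)

open Classical in
/-- The value of a function at a place. -/
def val (Q : Place K F) (g : F) : K := if hg : g ∈ ordGe Q 0 then (exists_val Q hg).choose else 0

theorem val_spec (Q : Place K F) {g : F} (hg : g ∈ ordGe Q 0) :
    g - algebraMap K F (val Q g) ∈ ordGe Q 1 := by
  rw [val, dif_pos hg]; exact (exists_val Q hg).choose_spec

theorem val_eq (Q : Place K F) {g : F} {a : K} (h : g - algebraMap K F a ∈ ordGe Q 1) :
    val Q g = a := by
  have h0 : g ∈ ordGe Q 0 := by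
    have := add_mem (ordGe_anti Q (show (0 : ℤ) ≤ 1 by norm_num) h)
      ((mem_ordGe_zero Q).mpr (Q.algebraMap_mem' a))
    rwa [sub_add_cancel] at this
  have h1 := sub_mem h (val_spec Q h0)
  rw [sub_sub_sub_cancel_left, ← map_sub] at h1
  by_contra hne
  have hne' : algebraMap K F (val Q g - a) ≠ 0 := (map_ne_zero _).mpr (sub_ne_zero.mpr hne)
  have := le_ord_of_mem_ordGe Q hne' h1
  rw [ord_algebraMap] at this
  omega

theorem val_add (Q : Place K F) {f g : F} (hf : f ∈ ordGe Q 0) (hg : g ∈ ordGe Q 0) :
    val Q (f + g) = val Q f + val Q g := by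
  refine val_eq Q ?_
  rw [map_add, add_sub_add_comm]
  exact add_mem (val_spec Q hf) (val_spec Q hg)

theorem val_smul (Q : Place K F) (c : K) {f : F} (hf : f ∈ ordGe Q 0) :
    val Q (c • f) = c * val Q f := by
  refine val_eq Q ?_
  rw [map_mul, Algebra.smul_def, ← mul_sub, ← Algebra.smul_def]
  exact Submodule.smul_mem _ c (val_spec Q hf)

theorem val_mul (Q : Place K F) {f g : F} (hf : f ∈ ordGe Q 0) (hg : g ∈ ordGe Q 0) :
    val Q (f * g) = val Q f * val Q g := by
  refine val_eq Q ?_
  have e : f * g - algebraMap K F (val Q f * val Q g) =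
      f * (g - algebraMap K F (val Q g)) + val Q g • (f - algebraMap K F (val Q f)) := by
    rw [map_mul, Algebra.smul_def]; ring
  rw [e]
  exact add_mem (by simpa using mul_mem_ordGe Q hf (val_spec Q hg))
    (Submodule.smul_mem _ _ (val_spec Q hf))

@[simp] theorem val_algebraMap (Q : Place K F) (a : K) : val Q (algebraMap K F a) = a :=
  val_eq Q (by simp)

@[simp] theorem val_zero (Q : Place K F) : val Q (0 : F) = 0 := val_eq Q (by simp)

theorem val_eq_zero_iff (Q : Place K F) {f : F} (hf : f ∈ ordGe Q 0) :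
    val Q f = 0 ↔ f ∈ ordGe Q 1 :=
  ⟨fun h => by simpa [h] using val_spec Q hf, fun h => val_eq Q (by simpa using h)⟩

end Fermat.Agent.MordellWeil
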