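import Fermat.Agent.MordellWeil.Frames

/-!
# Complementary pairs of divisors as an algebraic family
-/

set_option autoImplicit false
set_option linter.style.haveILetI false
set_option linter.unusedSectionVars false

noncomputable section

open AlgebraicCurve Fermat.Agent.FF
open scoped Pointwise

namespace Fermat.Agent.MordellWeil

/-- Numerical data of a family of complementary pairs. -/
structure PLevel where
  m : ℕ
  n : ℕ
  m' : ℕ
  n' : ℕ

/-- The three blocks of a pair: the subspace, its complement and the section. -/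
inductive PBlk
  | W
  | W'
  | U
deriving DecidableEq, Fintype

variable {F : Type*} [Field F] [Algebra Qb F] [IsFunctionField Qb F]

namespace PLevel

variable (L : PLevel)

/-- Admissible data. -/
def Good (F : Type*) [Field F] [Algebra Qb F] [IsFunctionField Qb F] : Prop :=
  L.n + bnd Qb F + 1 ≤ L.m ∧ L.n' + bnd Qb F + 1 ≤ L.m'

/-- A complementary pair. -/
structure Pt (X : Coords F) (L : PLevel) where
  D : Divisor Qb F
  D' : Divisor Qb F
  u : F
  D_nonneg : 0 ≤ D
  D'_nonneg : 0 ≤ D'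
  D_degree : Divisor.degree D = L.n
  D'_degree : Divisor.degree D' = L.n'
  u_mem : u ∈ X.V (L.n + L.n')
  u_ne : u ≠ 0
  u_div : X.zdiv (L.n + L.n') u = D + D'

variable (X : Coords F)

/-- Index types of the blocks. -/
def σ : PBlk → Type
  | .W => Fin (X.kdim L.m L.n) → Fin (X.d L.m)
  | .W' => Fin (X.kdim L.m' L.n') → Fin (X.d L.m')
  | .U => Fin (X.d (L.n + L.n'))

instance finite_σ (b : PBlk) : Finite (L.σ X b) := by
  cases b <;> simp only [σ] <;> infer_instance

open Classical in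
/-- A basis of `L(m • pt - D)`, with junk value if the dimension is not the expected one. -/
def basisW (m k : ℕ) (D : Divisor Qb F) : Fin k → F :=
  if h : FiniteDimensional Qb (X.W m D) ∧ Module.finrank Qb (X.W m D) = k then
    haveI := h.1
    fun j => (Module.finBasisOfFinrankEq Qb (X.W m D) h.2 j : F)
  else 0

theorem basisW_spec {m n : ℕ} {D : Divisor Qb F} (hD : 0 ≤ D) (hn : Divisor.degree D = n)
    (hm : n + bnd Qb F ≤ m) :
    LinearIndependent Qb (basisW X m (X.kdim m n) D) ∧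
      Submodule.span Qb (Set.range (basisW X m (X.kdim m n) D)) = X.W m D ∧
      (∀ j, basisW X m (X.kdim m n) D j ∈ X.V m) ∧
      X.pl m (basisW X m (X.kdim m n) D) ≠ 0 ∧
      X.hW m D = habs (X.pl m (basisW X m (X.kdim m n) D)) := by
  have hfin := X.finiteDimensional_of_le (X.W_le (m := m) hD)
  have hk := X.finrank_W hn hm
  haveI := hfin
  rw [basisW, dif_pos ⟨hfin, hk⟩]
  set b := Module.finBasisOfFinrankEq Qb (X.W m D) hk with hb
  have h1 : LinearIndependent Qb fun j => (b j : F) :=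
    b.linearIndependent.map' (Submodule.subtype _) (Submodule.ker_subtype _)
  have h2 : Submodule.span Qb (Set.range fun j => (b j : F)) = X.W m D := by
    rw [show (Set.range fun j => (b j : F)) = (X.W m D).subtype '' Set.range b from by
      rw [← Set.range_comp]; rfl,
      Submodule.span_image, b.span_eq, Submodule.map_top, Submodule.range_subtype]
  have h3 : ∀ j, (b j : F) ∈ X.V m := fun j => X.W_le hD (b j).2
  exact ⟨h1, h2, h3, X.pl_ne_zero h3 h1, X.hSub_eq _ (X.W_le hD) h1 h2⟩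

/-- The coordinates of a pair. -/
def vec : ∀ b : PBlk, Pt X L → L.σ X b → Qb
  | .W, x => X.pl L.m (basisW X L.m (X.kdim L.m L.n) x.D)
  | .W', x => X.pl L.m' (basisW X L.m' (X.kdim L.m' L.n') x.D')
  | .U, x => X.co (L.n + L.n') x.u

variable {L X}

theorem vec_ne_zero (hL : L.Good F) (b : PBlk) (x : Pt X L) : L.vec X b x ≠ 0 := by
  obtain ⟨h1, h2⟩ := hL
  match b with
  | .W => exact (basisW_spec X x.D_nonneg x.D_degree (by omega)).2.2.2.1
  | .W' => exact (basisW_spec X x.D'_nonneg x.D'_degree (by omega)).2.2.2.1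
  | .U => exact X.co_ne_zero x.u_mem x.u_ne

variable (L X)

/-- The conditions cutting out normalised pairs in a chart. -/
def Cond (c : ∀ b, L.σ X b) (z : (Σ b, L.σ X b) → Qb) : Prop :=
  (FrameCond (c .W) (fun J => z ⟨.W, J⟩) ∧ FrameCond (c .W') (fun J => z ⟨.W', J⟩) ∧
    z ⟨.U, c .U⟩ = 1) ∧
  ∀ i j, X.el L.m (uvec (fun J => z ⟨.W, J⟩) (c .W, i)) *
      X.el L.m' (uvec (fun J => z ⟨.W', J⟩) (c .W', j)) ∈
    (X.V (L.m + L.m' - (L.n + L.n'))).map
      (LinearMap.mulLeft Qb (X.el (L.n + L.n') fun i => z ⟨.U, i⟩))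

theorem isAlgSet_cond (hL : L.Good F) (c : ∀ b, L.σ X b) : IsAlgSet {z | L.Cond X c z} := by
  obtain ⟨h1, h2⟩ := hL
  set P : ((Σ b, L.σ X b) → Qb) → Prop := fun z => FrameCond (c .W) (fun J => z ⟨.W, J⟩) ∧
      FrameCond (c .W') (fun J => z ⟨.W', J⟩) ∧ z ⟨.U, c .U⟩ = 1 with hP
  have hPalg : IsAlgSet {z | P z} :=
    IsAlgSet.and (isAlgSet_frameCond (c .W) (fun J => (⟨.W, J⟩ : Σ b, L.σ X b)))
      (IsAlgSet.and (isAlgSet_frameCond (c .W') (fun J => (⟨.W', J⟩ : Σ b, L.σ X b)))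
        (IsAlgSet.of_eq (IsPoly.coord _) (IsPoly.const 1)))
  have hall : ∀ i j, IsAlgSet {z : (Σ b, L.σ X b) → Qb | P z ∧
      X.el L.m (uvec (fun J => z ⟨.W, J⟩) (c .W, i)) *
        X.el L.m' (uvec (fun J => z ⟨.W', J⟩) (c .W', j)) ∈
      (X.V (L.m + L.m' - (L.n + L.n'))).map
        (LinearMap.mulLeft Qb (X.el (L.n + L.n') fun i => z ⟨.U, i⟩))} := fun i j =>
    X.isAlgSet_mem_map (N := L.n + L.n') (by omega) hPalg
      ((X.isPolyElt_el fun x => IsPoly.coord _).mul X (X.isPolyElt_el fun x => IsPoly.coord _))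
      (X.isPolyElt_el fun x => IsPoly.coord _)
      fun z hz => X.el_ne_zero fun h => one_ne_zero (hz.2.2.symm.trans (congrFun h (c .U)))
  have hk : 1 ≤ X.kdim L.m L.n := X.one_le_kdim (by omega)
  have hk' : 1 ≤ X.kdim L.m' L.n' := X.one_le_kdim (by omega)
  have e : {z | L.Cond X c z} = {z | ∀ i j, P z ∧
      X.el L.m (uvec (fun J => z ⟨.W, J⟩) (c .W, i)) *
        X.el L.m' (uvec (fun J => z ⟨.W', J⟩) (c .W', j)) ∈
      (X.V (L.m + L.m' - (L.n + L.n'))).map
        (LinearMap.mulLeft Qb (X.el (L.n + L.n') fun i => z ⟨.U, i⟩))} := by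
    ext z
    exact ⟨fun h i j => ⟨h.1, h.2 i j⟩,
      fun h => ⟨(h ⟨0, hk⟩ ⟨0, hk'⟩).1, fun i j => (h i j).2⟩⟩
  rw [e]
  exact IsAlgSet.forall_ fun i => IsAlgSet.forall_ fun j => hall i j

variable {L X}

/-- Every normalised solution comes from a pair. -/
theorem exists_pt (hL : L.Good F) {c : ∀ b, L.σ X b} {z : (Σ b, L.σ X b) → Qb}
    (h : L.Cond X c z) : ∃ x : Pt X L,
      X.frameSpan L.m (c .W) (fun J => z ⟨.W, J⟩) = X.W L.m x.D ∧
      X.frameSpan L.m' (c .W') (fun J => z ⟨.W', J⟩) = X.W L.m' x.D' ∧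
      x.u = X.el (L.n + L.n') fun i => z ⟨.U, i⟩ := by
  obtain ⟨hm, hm'⟩ := hL
  obtain ⟨⟨hW, hW', hU⟩, hmul⟩ := h
  set S := X.frameSpan L.m (c .W) (fun J => z ⟨.W, J⟩)
  set S' := X.frameSpan L.m' (c .W') (fun J => z ⟨.W', J⟩)
  set u := X.el (L.n + L.n') fun i => z ⟨.U, i⟩
  have hu : u ≠ 0 := X.el_ne_zero fun h => one_ne_zero (hU.symm.trans (congrFun h (c .U)))
  have hk := X.finrank_frameSpan hW
  have hk' := X.finrank_frameSpan hW'
  obtain ⟨B, hB⟩ := X.exists_isBase (X.frameSpan_le _ _ _) hk (X.one_le_kdim (by omega))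
  obtain ⟨B', hB'⟩ := X.exists_isBase (X.frameSpan_le _ _ _) hk' (X.one_le_kdim (by omega))
  have hle : X.zdiv (L.n + L.n') u ≤ B + B' := by
    refine (hB.mul X hB').zdiv_le X hu
      (show L.n + L.n' + (L.m + L.m' - (L.n + L.n')) = L.m + L.m' by omega) ?_
    rw [Coords.frameSpan, Coords.frameSpan, Submodule.span_mul_span]
    refine Submodule.span_le.mpr ?_
    rintro _ ⟨_, ⟨i, rfl⟩, _, ⟨j, rfl⟩, rfl⟩
    exact hmul i j
  have hd := hB.degree_le X hk hm
  have hd' := hB'.degree_le X hk' hm'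
  have hsum := FF.degree_mono hle
  rw [X.degree_zdiv, map_add] at hsum
  push_cast at hsum
  have e : X.zdiv (L.n + L.n') u = B + B' := by
    by_contra hne
    obtain ⟨v, hv⟩ : ∃ v, X.zdiv (L.n + L.n') u v < (B + B') v := by
      by_contra hall
      push Not at hall
      exact hne (le_antisymm hle (Finsupp.le_def.mpr hall))
    have h1 : X.zdiv (L.n + L.n') u + Finsupp.single v 1 ≤ B + B' := Finsupp.le_def.mpr fun w => by
      classical
      have := Finsupp.le_def.mp hle w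
      rw [Finsupp.add_apply, Finsupp.single_apply]
      split_ifs with h
      · subst h; omega
      · omega
    have := FF.degree_mono h1
    rw [map_add, map_add, X.degree_zdiv, degree_single_one] at this
    omega
  exact ⟨⟨B, B', u, hB.nonneg X (X.frameSpan_le _ _ _), hB'.nonneg X (X.frameSpan_le _ _ _),
      by omega, by omega, X.el_mem _ _, hu, e⟩,
    hB.eq_W X hk (by omega) (by omega), hB'.eq_W X hk' (by omega) (by omega), rfl⟩

theorem cond_ratio (hL : L.Good F) (c : ∀ b, L.σ X b) (x : Pt X L)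
    (hc : ∀ b, L.vec X b x (c b) ≠ 0) :
    L.Cond X c (fun a => L.vec X a.1 x a.2 / L.vec X a.1 x (c a.1)) ∧
      X.frameSpan L.m (c .W)
          (fun J => L.vec X .W x J / L.vec X .W x (c .W)) = X.W L.m x.D ∧
      X.frameSpan L.m' (c .W')
          (fun J => L.vec X .W' x J / L.vec X .W' x (c .W')) = X.W L.m' x.D' := by
  obtain ⟨hm, hm'⟩ := hL
  obtain ⟨h1, h2, h3, h4, -⟩ := basisW_spec X (m := L.m) x.D_nonneg x.D_degree (by omega)
  obtain ⟨h1', h2', h3', h4', -⟩ := basisW_spec X (m := L.m') x.D'_nonneg x.D'_degree (by omega)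
  set z : (Σ b, L.σ X b) → Qb := fun a => L.vec X a.1 x a.2 / L.vec X a.1 x (c a.1)
  have e := X.frameSpan_normalise (X.W_le x.D_nonneg) h2 (c := c .W) (hc .W)
  have e' := X.frameSpan_normalise (X.W_le x.D'_nonneg) h2' (c := c .W') (hc .W')
  have hFW : FrameCond (c .W) (fun J => z ⟨.W, J⟩) :=
    frameCond_normalise (fun j => X.co L.m (basisW X L.m (X.kdim L.m L.n) x.D j)) (hc .W)
  have hFW' : FrameCond (c .W') (fun J => z ⟨.W', J⟩) :=
    frameCond_normalise (fun j => X.co L.m' (basisW X L.m' (X.kdim L.m' L.n') x.D' j)) (hc .W')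
  refine ⟨⟨⟨hFW, hFW', div_self (hc .U)⟩, fun i j => ?_⟩, e, e'⟩
  have hi : X.el L.m (uvec (fun J => z ⟨.W, J⟩) (c .W, i)) ∈ X.W L.m x.D :=
    e ▸ Submodule.subset_span ⟨i, rfl⟩
  have hj : X.el L.m' (uvec (fun J => z ⟨.W', J⟩) (c .W', j)) ∈ X.W L.m' x.D' :=
    e' ▸ Submodule.subset_span ⟨j, rfl⟩
  have := X.W_le_map_mul (N := L.n + L.n') (r := L.m + L.m' - (L.n + L.n')) x.u_ne (by omega)
    (le_of_eq x.u_div) (X.mul_mem_W hi hj)
  obtain ⟨g, hg, hgf⟩ := this
  set a := L.vec X .U x (c .U) with ha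
  refine ⟨a • g, Submodule.smul_mem _ _ hg, ?_⟩
  have hel : X.el (L.n + L.n') (fun i => z ⟨.U, i⟩) = a⁻¹ • x.u := by
    have : (fun i => z ⟨.U, i⟩) = a⁻¹ • X.co (L.n + L.n') x.u := by
      funext i
      exact div_eq_inv_mul _ _
    refine (congrArg (X.el (L.n + L.n')) this).trans ?_
    rw [← X.co_smul _ x.u_mem, X.el_co (Submodule.smul_mem _ _ x.u_mem)]
  have ha0 : a ≠ 0 := hc .U
  rw [LinearMap.mulLeft_apply, hel, smul_mul_smul_comm, inv_mul_cancel₀ ha0, one_smul]
  exact hgf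

/-- Every divisor is part of a pair. -/
theorem exists_pt_of_divisor (X : Coords F) {m n : ℕ} {D : Divisor Qb F} (hD : 0 ≤ D)
    (hn : Divisor.degree D = n) :
    ∃ x : Pt X ⟨m, n, 2 * bnd Qb F + 2, bnd Qb F + 1⟩, x.D = D := by
  obtain ⟨u, hu, hu0, -⟩ := exists_exact_finset
    (D := Finsupp.single X.pt ((n + (bnd Qb F + 1) : ℕ) : ℤ) - D)
    (by rw [X.degree_level_sub, hn]; push_cast; omega) ∅
  have hle : D ≤ X.zdiv (n + (bnd Qb F + 1)) u := Finsupp.le_def.mpr fun v => by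
    have := neg_le_ord hu hu0 v
    simp only [Finsupp.sub_apply] at this
    simp only [Coords.zdiv, Finsupp.add_apply, div_apply]
    omega
  refine ⟨⟨D, X.zdiv (n + (bnd Qb F + 1)) u - D, u, hD, sub_nonneg.mpr hle, hn, ?_,
    X.W_le hD hu, hu0, (add_sub_cancel _ _).symm⟩, rfl⟩
  rw [map_sub, X.degree_zdiv, hn]
  push_cast
  omega

end PLevel

end Fermat.Agent.MordellWeil
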