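import Fermat.Agent.FiniteFlat.CurveLemmas

/-!
# Riemann-Roch spaces of large degree: base points, products, representatives
-/

set_option autoImplicit false
set_option linter.style.haveILetI false
set_option linter.unusedSectionVars false

noncomputable section

open AlgebraicCurve Fermat.Agent.FF
open scoped Pointwise

namespace Fermat.Agent.MordellWeil

variable {K F : Type*} [Field K] [Field F] [Algebra K F] [IsFunctionField K F]

theorem bnd_exists [IsAlgClosed K] : ∃ c : ℕ, 1 ≤ c ∧ genusFF K F ≤ c ∧
    ∀ D : Divisor K F, (c : ℤ) ≤ Divisor.degree D →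
      ell K D = Divisor.degree D + 1 - genusFF K F := by
  obtain ⟨c, hc⟩ := exists_ell_eq (K := K) (F := F)
  exact ⟨c.toNat + genusFF K F + 1, by omega, by omega, fun D hD => hc D (by omega)⟩

variable [IsAlgClosed K]

variable (K F) in
/-- Beyond this degree the Riemann-Roch formula has no correction term. -/
def bnd : ℕ := (bnd_exists (K := K) (F := F)).choose

theorem one_le_bnd : 1 ≤ bnd K F := (bnd_exists (K := K) (F := F)).choose_spec.1

theorem genus_le_bnd : genusFF K F ≤ bnd K F := (bnd_exists (K := K) (F := F)).choose_spec.2.1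

theorem ell_eq {D : Divisor K F} (hD : (bnd K F : ℤ) ≤ Divisor.degree D) :
    ell K D = Divisor.degree D + 1 - genusFF K F :=
  (bnd_exists (K := K) (F := F)).choose_spec.2.2 D hD

/-! ### Elementary facts -/

theorem mem_L {D : Divisor K F} {f : F} :
    f ∈ riemannRochSpace D ↔ f = 0 ∨ ∀ v : Place K F, -D v ≤ v.ord f := by
  rw [mem_riemannRochSpace_iff]
  constructor
  · intro h
    rcases eq_or_ne f 0 with hf | hf
    · exact .inl hf
    · exact .inr fun v => (h v).resolve_left hf
  · rintro (rfl | h) v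
    · exact .inl rfl
    · exact .inr (h v)

theorem neg_le_ord {D : Divisor K F} {f : F} (hf : f ∈ riemannRochSpace D) (h0 : f ≠ 0)
    (v : Place K F) : -D v ≤ v.ord f :=
  (mem_L.mp hf).resolve_left h0 v

theorem mem_L_of_le {D : Divisor K F} {f : F} (h : ∀ v : Place K F, -D v ≤ v.ord f) :
    f ∈ riemannRochSpace D := mem_L.mpr (.inr h)

theorem finrank_L {D : Divisor K F} (hD : (bnd K F : ℤ) ≤ Divisor.degree D) :
    (Module.finrank K (riemannRochSpace D) : ℤ) = Divisor.degree D + 1 - genusFF K F :=
  ell_eq hD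

/-! ### Base points -/

/-- An element of `L(D)` attaining the bound at finitely many given places. -/
theorem exists_exact_finset {D : Divisor K F} (hD : (bnd K F : ℤ) + 1 ≤ Divisor.degree D)
    (S : Finset (Place K F)) :
    ∃ f ∈ riemannRochSpace D, f ≠ 0 ∧ ∀ v ∈ S, v.ord f = -D v := by
  classical
  obtain ⟨v₀⟩ := exists_place (K := K) (F := F)
  obtain ⟨f, hf, hfn⟩ := FiniteFlat.exists_exact (riemannRochSpace D) (insert v₀ S) (fun v => -D v + 1)
    fun v _ => FiniteFlat.exists_notMem_ordGe (fun _ => ell_eq) hD v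
  have h0 : f ≠ 0 := fun e => hfn v₀ (Finset.mem_insert_self _ _) (e ▸ zero_mem _)
  refine ⟨f, hf, h0, fun v hv => le_antisymm ?_ (neg_le_ord hf h0 v)⟩
  by_contra! h
  exact hfn v (Finset.mem_insert_of_mem hv) (mem_ordGe_of_le v (by omega))

/-- An element of `L(D)` attaining the bound at `v`. -/
theorem exists_exact {D : Divisor K F} (hD : (bnd K F : ℤ) + 1 ≤ Divisor.degree D)
    (v : Place K F) : ∃ f ∈ riemannRochSpace D, f ≠ 0 ∧ v.ord f = -D v := by
  obtain ⟨f, hf, h0, h⟩ := exists_exact_finset hD {v}
  exact ⟨f, hf, h0, h v (Finset.mem_singleton_self v)⟩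

/-- Products of Riemann-Roch spaces of large degree. -/
theorem L_mul_eq {A B : Divisor K F} (hA : (bnd K F : ℤ) + 1 ≤ Divisor.degree A)
    (hB : 3 * (bnd K F : ℤ) + 2 ≤ Divisor.degree B) :
    riemannRochSpace A * riemannRochSpace B = riemannRochSpace (A + B) :=
  FiniteFlat.riemannRochSpace_mul (by exact_mod_cast one_le_bnd) (fun _ => ell_eq) hA hB

/-! ### Representatives -/

theorem exists_effective {D : Divisor K F} (h : (genusFF K F : ℤ) ≤ Divisor.degree D) :
    ∃ f : F, f ≠ 0 ∧ 0 ≤ D + div K f := by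
  refine exists_ne_zero_of_ell_pos ?_
  have := riemann_inequality D
  have := one_le_ell_zero (K := K) (F := F)
  omega

end Fermat.Agent.MordellWeil
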