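import Fermat.Agent.MordellWeil.PointLists
import Fermat.Agent.CurveTorsion.WeilDiff

/-!
# Sums of `g` points in general position are alone in their linear equivalence class
-/

set_option autoImplicit false
set_option linter.style.haveILetI false
set_option linter.unusedSectionVars false

noncomputable section

open AlgebraicCurve Fermat.Agent.FF

namespace Fermat.Agent.MordellWeil

variable {F : Type*} [Field F] [Algebra Qb F] [IsFunctionField Qb F]

namespace Coords

variable (X : Coords F)

/-- There are `g` sections detecting tuples which are unique in their class. -/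
theorem exists_detector : ∃ w : Fin (genusFF Qb F) → F, (∀ i, w i ∈ X.V (ml F)) ∧
    LinearIndependent Qb w ∧
    ∀ P : Fin (genusFF Qb F) → Place Qb F,
      (Matrix.of fun j i => X.evv (P j) (ml F) (w i) :
        Matrix (Fin (genusFF Qb F)) (Fin (genusFF Qb F)) Qb).det ≠ 0 →
      ∀ E : Divisor Qb F, 0 ≤ E → Divisor.degree E = genusFF Qb F →
        X.cls (genusFF Qb F) E = X.cls (genusFF Qb F) (X.sumP P) → E = X.sumP P := by
  classical
  have hgb := genus_le_bnd (K := Qb) (F := F)
  obtain ⟨W, hWdeg, hRR⟩ := Fermat.Agent.CurveTorsion.exists_canonical (K := Qb) (F := F)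
  have h0 := hRR 0
  rw [sub_zero, map_zero, ell_zero] at h0
  have hfin := finiteDimensional_riemannRochSpace (K := Qb) W
  have hW : Module.finrank Qb (riemannRochSpace W) = genusFF Qb F := by
    simp only [ell] at h0; omega
  obtain ⟨h, hh0, hpos⟩ := exists_effective (D := Finsupp.single X.pt (ml F : ℤ) - W)
    (by rw [map_sub, degree_single_one, hWdeg]; simp only [ml]; push_cast; omega)
  have hord : ∀ v : Place Qb F, W v - Finsupp.single X.pt (ml F : ℤ) v ≤ v.ord h := fun v => by
    have := Finsupp.le_def.mp hpos v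
    simp only [Finsupp.add_apply, Finsupp.sub_apply, div_apply, Finsupp.zero_apply] at this
    omega
  have hh : ∀ f ∈ riemannRochSpace W, h * f ∈ X.V (ml F) := fun f hf => mem_L_of_le fun v => by
    rcases eq_or_ne f 0 with rfl | hf0
    · simp only [mul_zero, Place.ord_zero, neg_nonpos, Finsupp.single_apply]
      split_ifs <;> simp
    rw [v.ord_mul hh0 hf0]
    have := neg_le_ord hf hf0 v
    have := hord v
    omega
  let b := Module.finBasisOfFinrankEq Qb (riemannRochSpace W) hW
  refine ⟨fun i => h * (b i : F), fun i => hh _ (b i).2,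
    (b.linearIndependent.map' (Submodule.subtype _) (Submodule.ker_subtype _)).map'
      (LinearMap.mulLeft Qb h) (LinearMap.ker_eq_bot.mpr (mul_right_injective₀ hh0)),
    fun P hdet E hE hEdeg hcls => ?_⟩
  set D := X.sumP P with hD
  have hDdeg := X.degree_sumP P
  have hnone : ∀ f ∈ riemannRochSpace (W - D), f = 0 := by
    intro f hf
    by_contra hf0
    have hfW : f ∈ riemannRochSpace W :=
      riemannRochSpace_mono (sub_le_self _ (X.sumP_nonneg P)) hf
    have hsum : ∑ i, b.repr ⟨f, hfW⟩ i • (h * (b i : F)) = h * f := by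
      have e : ∑ i, b.repr ⟨f, hfW⟩ i • (b i : F) = f := by
        rw [← Submodule.coe_subtype, ← Finset.sum_congr rfl fun i _ => map_smul (riemannRochSpace W).subtype _ (b i),
          ← map_sum, b.sum_repr]
        rfl
      simp only [← mul_smul_comm]
      rw [← Finset.mul_sum, e]
    have hev : ∀ j, X.evv (P j) (ml F) (h * f) = 0 := by
      intro j
      refine (X.evv_eq_zero_iff (D := 0) le_rfl rfl (by rw [W_zero]; exact hh f hfW)).mpr ?_
      rw [zero_add]
      refine mem_L_of_le fun v => ?_
      have h1 := neg_le_ord hf hf0 v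
      have hle : Finsupp.single (P j) (1 : ℤ) ≤ D :=
        Finset.single_le_sum (f := fun r => Finsupp.single (P r) (1 : ℤ))
          (fun r _ => single_nonneg _) (Finset.mem_univ j)
      have h3 := Finsupp.le_def.mp hle v
      have h4 := hord v
      rw [v.ord_mul hh0 hf0]
      simp only [Finsupp.sub_apply] at h1 ⊢
      omega
    have hc : (Matrix.of fun j i => X.evv (P j) (ml F) (h * (b i : F)) :
        Matrix (Fin (genusFF Qb F)) (Fin (genusFF Qb F)) Qb).mulVec
          (fun i => b.repr ⟨f, hfW⟩ i) = 0 := by
      funext j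
      have hsm : ∀ i, b.repr ⟨f, hfW⟩ i • (h * (b i : F)) ∈ X.V (ml F) := fun i =>
        Submodule.smul_mem _ _ (hh _ (b i).2)
      have := hev j
      rw [← hsum, X.evv_eq_sum _ (sum_mem fun i _ => hsm i),
        X.co_sum _ fun i _ => hsm i] at this
      simp only [Matrix.mulVec, dotProduct, Matrix.of_apply, Pi.zero_apply]
      refine Eq.trans ?_ this
      simp only [X.evv_eq_sum _ (hh _ (b _).2), Finset.sum_apply, Finset.mul_sum, Finset.sum_mul,
        X.co_smul _ (hh _ (b _).2), Pi.smul_apply, smul_eq_mul]
      rw [Finset.sum_comm]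
      exact Finset.sum_congr rfl fun _ _ => Finset.sum_congr rfl fun _ _ => by ring
    have hz := Matrix.eq_zero_of_mulVec_eq_zero hdet hc
    refine hf0 ?_
    have hsf := b.sum_repr ⟨f, hfW⟩
    rw [Finset.sum_eq_zero fun i _ => by rw [congrFun hz i, Pi.zero_apply, zero_smul]] at hsf
    exact (congrArg Subtype.val hsf).symm
  have hbot : ell Qb (W - D) = 0 := by
    have hb : riemannRochSpace (W - D) = ⊥ := (Submodule.eq_bot_iff _).mpr hnone
    rw [ell, hb, finrank_bot, Nat.cast_zero]
  have h1 : Module.finrank Qb (riemannRochSpace D) = 1 := by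
    have := hRR D
    rw [hbot, hDdeg] at this
    simp only [ell] at this
    omega
  obtain ⟨u, hu0, hu⟩ := (X.cls_eq_zero_iff (n := genusFF Qb F + genusFF Qb F)
    (D := E + (X.zdiv (genusFF Qb F + genusFF Qb F) 1 - D)) (by
      rw [map_add, map_sub, hEdeg, hDdeg, X.degree_zdiv]; push_cast; ring)).mp (by
    rw [X.cls_add hEdeg (by rw [map_sub, X.degree_zdiv, hDdeg]; push_cast; ring), hcls,
      ← X.cls_add hDdeg (by rw [map_sub, X.degree_zdiv, hDdeg]; push_cast; ring), add_sub_cancel,
      X.cls_eq_zero_iff X.degree_zdiv]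
    exact ⟨1, one_ne_zero, rfl⟩)
  have hudiv : ∀ v : Place Qb F, v.ord u = E v - D v := fun v => by
    have := DFunLike.congr_fun hu v
    simp only [zdiv, Finsupp.add_apply, Finsupp.sub_apply, div_apply, Place.ord_one] at this
    omega
  have huD : u ∈ riemannRochSpace D := mem_L_of_le fun v => by
    have := Finsupp.le_def.mp hE v
    simp only [Finsupp.zero_apply] at this
    rw [hudiv v]; omega
  have h1D : (1 : F) ∈ riemannRochSpace D := mem_L_of_le fun v => by
    have := Finsupp.le_def.mp (X.sumP_nonneg P) v
    simp only [Finsupp.zero_apply, Place.ord_one, hD] at this ⊢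
    omega
  haveI := finiteDimensional_riemannRochSpace (K := Qb) D
  obtain ⟨c, hc⟩ := (finrank_eq_one_iff_of_nonzero' (⟨1, h1D⟩ : riemannRochSpace D)
    (fun h => one_ne_zero (congrArg Subtype.val h))).mp h1 ⟨u, huD⟩
  have hcu : c • (1 : F) = u := congrArg Subtype.val hc
  refine Finsupp.ext fun v => ?_
  have := hudiv v
  rw [← hcu, Algebra.smul_def, mul_one, FF.ord_algebraMap] at this
  omega

end Coords

end Fermat.Agent.MordellWeil
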