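import Fermat.Agent.MordellWeil.ChevalleyWeil
import Fermat.Agent.MordellWeil.Characters
import Fermat.Agent.MordellWeil.Divisible
import Mathlib.GroupTheory.Descent

/-!
# The weak Mordell–Weil theorem and the descent
-/

set_option autoImplicit false
set_option linter.style.haveILetI false
set_option linter.unusedSectionVars false

noncomputable section

open AlgebraicCurve Fermat.Agent.FF
open scoped Pointwise

namespace Fermat.Agent.MordellWeil

open Fermat.Agent.Arith (GQ QBar)

variable {F : Type*} [Field F] [Algebra Qb F] [IsFunctionField Qb F]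

namespace Coords

variable {X : Coords F}

namespace GalAct

variable (A : X.GalAct) (ρ : GQ →* SemilinearAut Qb F) (hρ : ∀ σ, ρ σ = A.act σ)

/-- The fixed classes. -/
def fixedClasses : AddSubgroup (Pic0 Qb F) :=
  ⨅ σ : GQ, (DistribSMul.toAddMonoidHom (Pic0 Qb F) (A.act σ)).eqLocus (AddMonoidHom.id _)

theorem mem_fixedClasses {y : Pic0 Qb F} : y ∈ A.fixedClasses ↔ ∀ σ, A.act σ • y = y := by
  simp [fixedClasses, AddSubgroup.mem_iInf, AddMonoidHom.eqLocus]

include hρ in
theorem act_mul (σ τ : GQ) (y : Pic0 Qb F) : A.act (σ * τ) • y = A.act σ • A.act τ • y := by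
  rw [← hρ, ← hρ, ← hρ, map_mul, mul_smul]

include hρ in
theorem act_inv_cancel (σ : GQ) (y : Pic0 Qb F) : A.act σ • A.act σ⁻¹ • y = y := by
  rw [← A.act_mul ρ hρ, mul_inv_cancel, ← hρ, map_one, one_smul]

include hρ in
/-- The weak Mordell–Weil theorem. -/
theorem exists_finite_reps : ∃ R : Set (Pic0 Qb F), R.Finite ∧ R ⊆ A.fixedClasses ∧
    ∀ x ∈ A.fixedClasses, ∃ r ∈ R, ∃ w ∈ A.fixedClasses, x - r = w + w := by
  classical
  let M : AddSubgroup (Pic0 Qb F) := (nsmulAddMonoidHom (α := Pic0 Qb F) 2).ker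
  have memM : ∀ T : Pic0 Qb F, T ∈ M ↔ (2 : ℕ) • T = 0 := fun T => Iff.rfl
  haveI : Finite M := (X.finite_nsmul_torsion 2 two_pos).to_subtype
  haveI := Fintype.ofFinite M
  have hactM : ∀ σ : GQ, ∀ T ∈ M, A.act σ • T ∈ M := fun σ T hT => by
    rw [memM] at hT ⊢
    rw [two_nsmul] at hT ⊢
    exact ((smul_add (A.act σ) T T).symm.trans (by rw [hT])).trans (smul_zero _)
  letI : Module (ZMod 2) M := AddCommGroup.zmodModule fun T => Subtype.ext T.2
  -- the kernel of the action on the two-torsion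
  let N : Subgroup GQ :=
    { carrier := {σ | ∀ T ∈ M, A.act σ • T = T}
      one_mem' := fun T _ => by rw [← hρ, map_one, one_smul]
      mul_mem' := fun {a b} ha hb T hT => by rw [A.act_mul ρ hρ, hb T hT, ha T hT]
      inv_mem' := fun {a} ha T hT => by
        conv_lhs => rw [← ha T hT]
        rw [← A.act_mul ρ hρ, inv_mul_cancel, ← hρ, map_one, one_smul] }
  haveI : N.Normal := ⟨fun n hn g T hT => by
    rw [A.act_mul ρ hρ, A.act_mul ρ hρ, hn _ (hactM _ T hT), A.act_inv_cancel ρ hρ]⟩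
  choose LT hLTfin hLT using fun T : M => A.exists_field_fix (T : Pic0 Qb F)
  haveI : FiniteDimensional ℚ (⨆ T, LT T : IntermediateField ℚ QBar) :=
    IntermediateField.finiteDimensional_iSup_of_finite
  have hopen : IsOpen (N : Set GQ) :=
    Subgroup.isOpen_mono (fun σ hσ T hT => hLT ⟨T, hT⟩ σ fun q hq =>
      (IntermediateField.mem_fixingSubgroup_iff _ _).mp hσ q (le_iSup LT ⟨T, hT⟩ hq))
      (IntermediateField.fixingSubgroup_isOpen _)
  let K : IntermediateField ℚ QBar := IntermediateField.fixedField N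
  have hK : K.fixingSubgroup = N :=
    InfiniteGalois.fixingSubgroup_fixedField ⟨N, N.isClosed_of_isOpen hopen⟩
  haveI : FiniteDimensional ℚ K := (InfiniteGalois.isOpen_iff_finite K).mp (by rw [hK]; exact hopen)
  haveI : IsGalois ℚ K := (InfiniteGalois.normal_iff_isGalois K).mp (by rw [hK]; infer_instance)
  haveI : NumberField K := { to_finiteDimensional := inferInstance }
  -- the bad primes
  choose dT hdT0 hdT using fun T : {T : M // T ≠ 0} =>
    A.exists_bad ((T : M) : Pic0 Qb F) fun h => T.2 (Subtype.ext h)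
  set d := ∏ T, dT T with hd
  have hd0 : d ≠ 0 := Finset.prod_ne_zero_iff.mpr fun T _ => hdT0 T
  have hfix : ∀ (p : ℕ) (P : ValuationSubring QBar), p.Prime → P.LiesOverPrime p → ¬ p ∣ d →
      ∀ σ ∈ P.inertiaSubgroupIn ℚ, ∀ y, A.act σ • y - y ∈ M → A.act σ • y = y := by
    intro p P hp hP hpd σ hσ y hy
    by_contra hne
    exact hdT ⟨⟨_, hy⟩, fun h => hne (sub_eq_zero.mp (congrArg Subtype.val h))⟩ p P hp hP
      (fun h => hpd (h.trans (Finset.dvd_prod_of_mem _ (Finset.mem_univ _)))) σ hσ y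
      (add_sub_cancel _ _).symm
  have hunr : UnramifiedOutside K d := fun p P hp hP hpd σ hσ q hq => by
    have hσN : σ ∈ N := fun T hT => hfix p P hp hP hpd σ hσ T (sub_mem (hactM σ T hT) hT)
    exact hq ⟨σ, hσN⟩
  obtain ⟨Φ, hΦ, hΦmem⟩ := exists_finite_characters hd0 hunr
  -- Kummer classes
  choose half hhalf using fun x : A.fixedClasses => X.exists_half (x : Pic0 Qb F)
  have hc : ∀ (x : A.fixedClasses) (σ : GQ), A.act σ • half x - half x ∈ M := fun x σ => by
    rw [memM, two_nsmul, sub_add_sub_comm]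
    refine sub_eq_zero.mpr ((smul_add (A.act σ) (half x) (half x)).symm.trans ?_)
    rw [hhalf]
    exact A.mem_fixedClasses.mp x.2 σ
  let c : A.fixedClasses → GQ → M := fun x σ => ⟨_, hc x σ⟩
  haveI : Finite (Module.Dual (ZMod 2) M) :=
    Finite.of_injective (fun f : Module.Dual (ZMod 2) M => (f : M → ZMod 2)) DFunLike.coe_injective
  haveI : Finite (GQ ⧸ N) := Subgroup.quotient_finite_of_isOpen N hopen
  have hchar : ∀ (x : A.fixedClasses) (f : Module.Dual (ZMod 2) M),
      ∃ φ ∈ Φ, ∀ h ∈ N, f (c x h) = φ h := by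
    intro x f
    have := hΦmem (fun σ => f (c x σ)) (fun g hg h hh => by
      rw [hK] at hg hh
      rw [← map_add]
      refine congrArg f (Subtype.ext ?_)
      change A.act (g * h) • half x - half x = (A.act g • half x - half x) + (A.act h • half x - half x)
      have e := hg _ (hc x h)
      rw [smul_sub] at e
      rw [A.act_mul ρ hρ, ← e]
      abel) (by
      obtain ⟨L, hL, hfixL⟩ := A.exists_field_fix (half x)
      exact ⟨L, hL, fun σ _ hσ => by
        rw [show c x σ = 0 from Subtype.ext (sub_eq_zero.mpr (hfixL σ hσ)), map_zero]⟩)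
      (fun p P hp hP hpd σ hσ => by
        rw [show c x σ = 0 from Subtype.ext (sub_eq_zero.mpr
          (hfix p P hp hP hpd σ hσ _ (hc x σ))), map_zero])
    rwa [hK] at this
  choose φ hφΦ hφ using hchar
  let data : A.fixedClasses → (Module.Dual (ZMod 2) M → Φ) × (GQ ⧸ N → M) := fun x =>
    (fun f => ⟨φ x f, hφΦ x f⟩, fun q => c x q.out)
  haveI := hΦ.to_subtype
  have key : ∀ x x' : A.fixedClasses, data x = data x' → half x - half x' ∈ A.fixedClasses := by
    intro x x' h
    rw [A.mem_fixedClasses]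
    intro σ
    obtain ⟨n, hn⟩ := QuotientGroup.mk_out_eq_mul N σ
    set g : GQ := (QuotientGroup.mk σ : GQ ⧸ N).out
    have hσ : σ = g * (↑n⁻¹ : GQ) := by rw [hn, Subgroup.coe_inv, mul_inv_cancel_right]
    have h2 : c x g = c x' g := congrFun (congrArg Prod.snd h) (QuotientGroup.mk σ)
    have h1 : c x (↑n⁻¹ : GQ) = c x' (↑n⁻¹ : GQ) :=
      (Module.forall_dual_apply_eq_zero_iff (ZMod 2) _).mp (fun f => by
        have e : φ x f = φ x' f := congrArg Subtype.val (congrFun (congrArg Prod.fst h) f)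
        rw [map_sub, hφ x f _ n⁻¹.2, hφ x' f _ n⁻¹.2, e, sub_self]) |> sub_eq_zero.mp
    have e1 : A.act (↑n⁻¹ : GQ) • half x - half x = A.act (↑n⁻¹ : GQ) • half x' - half x' :=
      congrArg Subtype.val h1
    have e2 : A.act g • half x - half x = A.act g • half x' - half x' := congrArg Subtype.val h2
    rw [hσ, A.act_mul ρ hρ, smul_sub,
      show A.act (↑n⁻¹ : GQ) • half x - A.act (↑n⁻¹ : GQ) • half x' = half x - half x' by
        rw [sub_eq_sub_iff_sub_eq_sub]; exact e1,
      smul_sub, sub_eq_sub_iff_sub_eq_sub]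
    exact e2
  refine ⟨Set.range fun q : Set.range data => ((q.2.choose : A.fixedClasses) : Pic0 Qb F),
    Set.finite_range _, ?_, fun x hx => ?_⟩
  · rintro _ ⟨q, rfl⟩
    exact q.2.choose.2
  let q : Set.range data := ⟨data ⟨x, hx⟩, _, rfl⟩
  refine ⟨_, ⟨q, rfl⟩, half ⟨x, hx⟩ - half q.2.choose, key _ _ q.2.choose_spec.symm, ?_⟩
  rw [sub_add_sub_comm, hhalf, hhalf]

include hρ in
/-- The Mordell–Weil theorem. -/
theorem fg_fixedClasses : A.fixedClasses.FG := by
  obtain ⟨R, hR, hRfix, hrep⟩ := A.exists_finite_reps ρ hρ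
  obtain ⟨P, hP⟩ := X.hgt_parallelogram
  obtain ⟨L, hL⟩ := X.exists_hgt_ge
  obtain ⟨H, hH⟩ := (hR.image X.hgt).bddAbove
  let h : A.fixedClasses → ℝ := fun x => X.hgt x
  haveI : Northcott h := ⟨fun B => (((X.finite_fixed_hgt_le A B).preimage
    Subtype.val_injective.injOn).subset fun x hx => ⟨A.mem_fixedClasses.mp x.2, hx⟩)⟩
  refine (AddGroup.fg_iff_addSubgroup_fg _).mp (AddGroup.fg_of_descent (f := nsmulAddMonoidHom 2)
    (s := Subtype.val ⁻¹' R) (h := h) (a := 2) (b := 4)
    (c := max (2 * H + P + L) (X.hgt 0 + P)) ?_ (by norm_num) (by norm_num)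
    (hR.preimage Subtype.val_injective.injOn) (Set.eq_univ_of_forall fun x => ?_) ?_ ?_)
  · rintro U _ ⟨u, hu, rfl⟩
    exact U.nsmul_mem hu 2
  · obtain ⟨r, hr, w, hw, e⟩ := hrep x x.2
    exact Set.mem_add.mpr ⟨⟨r, hRfix hr⟩, hr, _, ⟨⟨w, hw⟩, rfl⟩, Subtype.ext
      (by simp [two_nsmul, ← e])⟩
  · intro g hg x
    have := abs_le.mp (hP (g + x : Pic0 Qb F) g)
    rw [add_sub_cancel_left] at this
    have := hL ((g + x : Pic0 Qb F) + g)
    have := hH (Set.mem_image_of_mem _ hg)
    have := le_max_left (2 * H + P + L) (X.hgt 0 + P)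
    simp only [h, AddSubgroup.coe_add]
    linarith
  · intro x
    have := abs_le.mp (hP x x)
    rw [sub_self, ← two_nsmul] at this
    have := le_max_right (2 * H + P + L) (X.hgt 0 + P)
    simp only [h, nsmulAddMonoidHom_apply, AddSubgroup.coe_nsmul]
    linarith


end GalAct

end Coords

end Fermat.Agent.MordellWeil
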